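import Mathlib
import Fermat.Agent.QbarInst
import Fermat.Agent.FrobExists

/-!
# Lifting inertia elements

Let `L / ℚ` be Galois (possibly infinite), `A` a valuation subring of `L` over a prime `ℓ`,
`H` a closed subgroup of `Gal(L/ℚ)`, and `g` an element of `Gal(L/ℚ)` acting trivially modulo the
centre of `A` on the `H`-fixed algebraic integers. Then `g * h` is in the inertia group of `A`
for some `h ∈ H`. In particular the inertia group of `A` surjects onto the inertia groups at finite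
level.
-/

set_option autoImplicit false

open Pointwise NumberField
open Fermat.Agent.FrobExists

namespace Fermat.Agent.FlatOrd.InertiaLift

variable {L : Type} [Field L] [Algebra ℚ L]

/-- Membership in the inertia group can be tested on algebraic integers. -/
theorem mem_inertiaSubgroupIn_of_center [Algebra.IsAlgebraic ℚ L] (A : ValuationSubring L) {ℓ : ℕ}
    (hℓ : ℓ.Prime) (hA : A.LiesOverPrime ℓ) (σ : L ≃ₐ[ℚ] L)
    (h : ∀ x : integralClosure ℤ L, σ • x - x ∈ center A) :
    σ ∈ A.inertiaSubgroupIn ℚ := by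
  have hσc : σ • center A = center A := by
    have hle : ∀ x ∈ center A, σ • x ∈ center A := fun x hx => by
      have := add_mem (h x) hx
      rwa [sub_add_cancel] at this
    have hle' : ∀ x ∈ center A, σ⁻¹ • x ∈ center A := fun x hx => by
      have h1 := h (σ⁻¹ • x)
      rw [smul_inv_smul] at h1
      have := sub_mem hx h1
      rwa [sub_sub_cancel] at this
    ext x
    rw [Ideal.mem_pointwise_smul_iff_inv_smul_mem]
    refine ⟨fun hx => ?_, fun hx => hle' x hx⟩
    have := hle _ hx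
    rwa [smul_inv_smul] at this
  have hσA : σ • A = A := smul_eq_of_mem_stabilizer A hℓ.ne_zero hA σ hσc
  refine ⟨⟨σ, hσA⟩, ?_, rfl⟩
  show (⟨σ, hσA⟩ : A.decompositionSubgroup ℚ) ∈ MonoidHom.ker _
  rw [MonoidHom.mem_ker]
  have key : ∀ x : integralClosure ℤ L,
      IsLocalRing.residue A (ι A (σ • x)) = IsLocalRing.residue A (ι A x) := by
    intro x
    rw [← sub_eq_zero, ← map_sub, ← map_sub, IsLocalRing.residue_eq_zero_iff]
    exact h x
  set τ : A.decompositionSubgroup ℚ := ⟨σ, hσA⟩ with hτ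
  have h3 : ∀ z : integralClosure ℤ L, τ • IsLocalRing.residue A (ι A z) =
      (IsLocalRing.residue A (ι A z)) := by
    intro z
    conv_rhs => rw [← key]
    rw [← IsLocalRing.ResidueField.residue_smul]
    rfl
  refine RingEquiv.ext fun x => ?_
  show τ • x = x
  obtain ⟨y, rfl⟩ := IsLocalRing.residue_surjective x
  obtain ⟨a, b, hb, hab⟩ := (mem_iff A hℓ.ne_zero hA).mp y.2
  have hab' : y * ι A b = ι A a := Subtype.ext hab
  have hb0 : IsLocalRing.residue A (ι A b) ≠ 0 := by
    rw [Ne, IsLocalRing.residue_eq_zero_iff]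
    exact hb
  have h4 := congrArg (fun w => τ • IsLocalRing.residue A w) hab'
  simp only [map_mul, smul_mul'] at h4
  rw [h3, h3, ← hab', map_mul] at h4
  exact mul_right_cancel₀ hb0 h4

/-- Elements of the inertia group act trivially modulo the maximal ideal. -/
theorem sub_mem_nonunits_of_mem_inertia (A : ValuationSubring L) {σ : L ≃ₐ[ℚ] L}
    (h : σ ∈ A.inertiaSubgroupIn ℚ) {x : L} (hx : x ∈ A) : σ x - x ∈ A.nonunits := by
  obtain ⟨τ, hτ, rfl⟩ := h
  have h1 : τ ∈ MonoidHom.ker _ := hτ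
  rw [MonoidHom.mem_ker] at h1
  have h2 := congrArg (fun f => f (IsLocalRing.residue A ⟨x, hx⟩)) h1
  have h3 : τ • IsLocalRing.residue A ⟨x, hx⟩ = IsLocalRing.residue A ⟨x, hx⟩ := h2
  rw [← IsLocalRing.ResidueField.residue_smul, ← sub_eq_zero, ← map_sub,
    IsLocalRing.residue_eq_zero_iff, ← ValuationSubring.coe_mem_nonunits_iff] at h3
  exact h3

theorem mem_decompositionSubgroup_of_mem_inertia (A : ValuationSubring L) {σ : L ≃ₐ[ℚ] L}
    (h : σ ∈ A.inertiaSubgroupIn ℚ) : σ ∈ A.decompositionSubgroup ℚ := by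
  obtain ⟨τ, -, rfl⟩ := h
  exact τ.2

section galois

variable [IsGalois ℚ L]

local instance instTopZbar' : TopologicalSpace (integralClosure ℤ L) := ⊥
local instance instDiscZbar' : DiscreteTopology (integralClosure ℤ L) := ⟨rfl⟩

omit [IsGalois ℚ L] in
theorem isOpen_stabilizer_integralClosure [Algebra.IsIntegral ℚ L] (x : integralClosure ℤ L) :
    IsOpen (MulAction.stabilizer (L ≃ₐ[ℚ] L) x : Set (L ≃ₐ[ℚ] L)) := by
  have h := stabilizer_isOpen_of_isIntegral (K := ℚ) (x : L)
  have h2 : (MulAction.stabilizer (L ≃ₐ[ℚ] L) x) = (MulAction.stabilizer (L ≃ₐ[ℚ] L) (x : L)) := by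
    ext σ
    rw [MulAction.mem_stabilizer_iff, MulAction.mem_stabilizer_iff]
    exact Subtype.ext_iff
  rw [h2]
  exact h

theorem exists_mul_mem_inertia (H : Subgroup (L ≃ₐ[ℚ] L)) (hH : IsClosed (H : Set (L ≃ₐ[ℚ] L)))
    (A : ValuationSubring L) {ℓ : ℕ} (hℓ : ℓ.Prime) (hA : A.LiesOverPrime ℓ)
    (g : L ≃ₐ[ℚ] L)
    (hg : ∀ x : integralClosure ℤ L, (∀ h ∈ H, h • x = x) → g • x - x ∈ center A) :
    ∃ h ∈ H, g * h ∈ A.inertiaSubgroupIn ℚ := by
  have : CompactSpace H := isCompact_iff_compactSpace.mp hH.isCompact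
  have : TotallyDisconnectedSpace H := inferInstance
  have : ContinuousSMul H (integralClosure ℤ L) := by
    rw [continuousSMul_iff_stabilizer_isOpen]
    intro x
    have h1 := (isOpen_stabilizer_integralClosure x).preimage (continuous_subtype_val (p := (· ∈ H)))
    exact h1
  let R := FixedPoints.subalgebra ℤ (integralClosure ℤ L) H
  have hR : Algebra.IsInvariant R (integralClosure ℤ L) H := ⟨fun b hb => ⟨⟨b, hb⟩, rfl⟩⟩
  have hunder : (center A).under R = (g⁻¹ • center A).under R := by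
    ext x
    rw [Ideal.mem_comap, Ideal.mem_comap, Ideal.mem_pointwise_smul_iff_inv_smul_mem, inv_inv]
    have h1 := hg (algebraMap R _ x) (fun h hh => x.2 ⟨h, hh⟩)
    constructor
    · intro hx
      have := add_mem h1 hx
      rwa [sub_add_cancel] at this
    · intro hx
      have := sub_mem hx h1
      rwa [sub_sub_cancel] at this
  obtain ⟨h1, hh1⟩ := Algebra.IsInvariant.exists_smul_of_under_eq_of_profinite (A := R)
    (B := integralClosure ℤ L) (G := H) (center A) (g⁻¹ • center A) hunder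
  have hstab : (g * (h1 : L ≃ₐ[ℚ] L)) • center A = center A := by
    rw [mul_smul]
    have : (h1 : L ≃ₐ[ℚ] L) • center A = g⁻¹ • center A := hh1.symm
    rw [this, smul_inv_smul]
  set σ : L ≃ₐ[ℚ] L := g * (h1 : L ≃ₐ[ℚ] L) with hσ
  have hσR : ∀ r : R, σ • (r : integralClosure ℤ L) - r ∈ center A := by
    intro r
    have h2 : (h1 : L ≃ₐ[ℚ] L) • (r : integralClosure ℤ L) = r := r.2 h1
    rw [hσ, mul_smul, h2]
    exact hg _ (fun h hh => r.2 ⟨h, hh⟩)
  let P : Ideal R := (center A).under R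
  have hlies : (center A).LiesOver P := ⟨rfl⟩
  let e : (integralClosure ℤ L ⧸ center A) ≃+* (integralClosure ℤ L ⧸ center A) :=
    Ideal.quotientEquiv _ _ (MulSemiringAction.toRingEquiv (L ≃ₐ[ℚ] L) (integralClosure ℤ L) σ)
      (by
        conv_lhs => rw [← hstab]
        rfl)
  let l : (integralClosure ℤ L ⧸ center A) ≃ₐ[R ⧸ P] (integralClosure ℤ L ⧸ center A) :=
    AlgEquiv.ofRingEquiv (f := e) (by
      intro r
      obtain ⟨r, rfl⟩ := Ideal.Quotient.mk_surjective r
      show Ideal.Quotient.mk _ (σ • (r : integralClosure ℤ L)) = Ideal.Quotient.mk _ _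
      rw [Ideal.Quotient.eq]
      exact hσR r)
  obtain ⟨⟨h2, hh2⟩, hl⟩ := Ideal.Quotient.stabilizerHom_surjective_of_profinite
    (G := H) P (center A) l
  have hl' : ∀ x : integralClosure ℤ L, (h2 : L ≃ₐ[ℚ] L) • x - σ • x ∈ center A := by
    intro x
    have h3 := DFunLike.congr_fun hl (Ideal.Quotient.mk _ x)
    have h4 : Ideal.Quotient.mk (center A) ((h2 : L ≃ₐ[ℚ] L) • x) =
      Ideal.Quotient.mk (center A) (σ • x) := h3
    rwa [Ideal.Quotient.eq] at h4
  refine ⟨h1 * h2⁻¹, H.mul_mem h1.2 (H.inv_mem h2.2), ?_⟩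
  refine mem_inertiaSubgroupIn_of_center A hℓ hA _ fun x => ?_
  have h5 := hl' ((h2 : L ≃ₐ[ℚ] L)⁻¹ • x)
  rw [smul_inv_smul] at h5
  have h6 : (g * ((h1 : L ≃ₐ[ℚ] L) * (h2 : L ≃ₐ[ℚ] L)⁻¹)) • x = σ • (h2 : L ≃ₐ[ℚ] L)⁻¹ • x := by
    rw [hσ, ← mul_assoc, mul_smul]
  rw [InvMemClass.coe_inv, h6, ← neg_sub]
  exact neg_mem h5

/-- An element of the Galois group acting trivially modulo the centre of `A` on the algebraic
integers of a subfield `F` agrees on `F` with an element of inertia. -/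
theorem exists_mul_mem_inertia_of_intermediateField (F : IntermediateField ℚ L)
    (A : ValuationSubring L) {ℓ : ℕ} (hℓ : ℓ.Prime) (hA : A.LiesOverPrime ℓ)
    (g : L ≃ₐ[ℚ] L)
    (hg : ∀ x : integralClosure ℤ L, (x : L) ∈ F → g • x - x ∈ center A) :
    ∃ σ ∈ A.inertiaSubgroupIn ℚ, ∀ x ∈ F, σ x = g x := by
  obtain ⟨h, hh, hgh⟩ := exists_mul_mem_inertia F.fixingSubgroup
    (InfiniteGalois.fixingSubgroup_isClosed F) A hℓ hA g (fun x hx => hg x (by
      have h1 : (x : L) ∈ IntermediateField.fixedField F.fixingSubgroup := by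
        rintro ⟨h, hh⟩
        exact congrArg Subtype.val (hx h hh)
      rwa [InfiniteGalois.fixedField_fixingSubgroup] at h1))
  refine ⟨g * h, hgh, fun x hx => ?_⟩
  show g (h x) = g x
  rw [(IntermediateField.mem_fixingSubgroup_iff F h).mp hh x hx]

end galois

end Fermat.Agent.FlatOrd.InertiaLift
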