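import Mathlib

/-!
# The key lemma: no trivial inertia constituents in the connected part of a finite flat group
scheme (`e = 1 < p - 1`)
-/

set_option autoImplicit false

namespace Fermat.Agent.FlatOrd.Key

/-- A `p`-th root of unity congruent to `1` modulo `p` is `1` (`p` odd). -/
theorem root_eq_one {Ω : Type} [Field Ω] [CharZero Ω] (P : ValuationSubring Ω) {p : ℕ}
    (hp : p.Prime) (hp2 : p ≠ 2) (hpm : (p : Ω) ∈ P.nonunits) {ζ z : Ω} (hz : z ∈ P)
    (h : ζ = 1 + p * z) (hζ : ζ ^ p = 1) : ζ = 1 := by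
  by_contra hne
  have hprim : IsPrimitiveRoot ζ p := by
    rw [IsPrimitiveRoot.iff_orderOf]
    have : Fact p.Prime := ⟨hp⟩
    exact orderOf_eq_prime hζ hne
  obtain ⟨n, rfl⟩ : ∃ n, p = n + 1 := ⟨p - 1, by have := hp.pos; omega⟩
  have hprod := hprim.prod_one_sub_pow_eq_order
  have hpP : ((n + 1 : ℕ) : Ω) ∈ P := natCast_mem P _
  have hζP : ζ ∈ P := by
    rw [h]; exact add_mem (one_mem P) (mul_mem hpP hz)
  -- each factor is divisible by `p`
  have hfac : ∀ k : ℕ, ∃ w ∈ P, 1 - ζ ^ (k + 1) = ((n + 1 : ℕ) : Ω) * w := by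
    intro k
    refine ⟨-(z * ∑ i ∈ Finset.range (k + 1), ζ ^ i), ?_, ?_⟩
    · exact neg_mem (mul_mem hz (sum_mem fun i _ => pow_mem hζP i))
    · have h1 := mul_geom_sum ζ (k + 1)
      have h2 : ζ - 1 = ((n + 1 : ℕ) : Ω) * z := by rw [h]; ring
      rw [h2] at h1
      linear_combination h1
  choose w hwP hw using hfac
  rw [Finset.prod_congr rfl fun k _ => hw k, Finset.prod_mul_distrib, Finset.prod_const,
    Finset.card_range] at hprod
  have hn : 2 ≤ n := by
    have := hp.two_le
    omega
  have hWP : ∏ k ∈ Finset.range n, w k ∈ P := prod_mem fun k _ => hwP k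
  set W := ∏ k ∈ Finset.range n, w k
  obtain ⟨m, rfl⟩ : ∃ m, n = m + 2 := ⟨n - 2, by omega⟩
  have hp0 : ((m + 2 + 1 : ℕ) : Ω) ≠ 0 := by exact_mod_cast hp.ne_zero
  have h3 : ((m + 2 + 1 : ℕ) : Ω) * (((m + 2 + 1 : ℕ) : Ω) ^ m * W) = 1 := by
    have h4 : ((m + 2 + 1 : ℕ) : Ω) * (((m + 2 + 1 : ℕ) : Ω) * (((m + 2 + 1 : ℕ) : Ω) ^ m * W)) =
        ((m + 2 + 1 : ℕ) : Ω) * 1 := by
      rw [mul_one]
      calc _ = ((m + 2 + 1 : ℕ) : Ω) ^ (m + 2) * W := by ring
        _ = _ := by rw [hprod]; push_cast; ring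
    exact mul_left_cancel₀ hp0 h4
  rw [ValuationSubring.mem_nonunits_iff_exists_mem_maximalIdeal] at hpm
  obtain ⟨hpP', hmax⟩ := hpm
  rw [IsLocalRing.mem_maximalIdeal, mem_nonunits_iff] at hmax
  apply hmax
  refine IsUnit.of_mul_eq_one (⟨((m + 2 + 1 : ℕ) : Ω) ^ m * W, mul_mem (pow_mem hpP _) hWP⟩ : P) ?_
  exact Subtype.ext h3

/-- A `p`-power root of unity congruent to `1` modulo `p` is `1` (`p` odd). -/
theorem root_eq_one' {Ω : Type} [Field Ω] [CharZero Ω] (P : ValuationSubring Ω) {p : ℕ}
    (hp : p.Prime) (hp2 : p ≠ 2) (hpm : (p : Ω) ∈ P.nonunits) (k : ℕ) {ζ : Ω}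
    (h : ∃ z ∈ P, ζ = 1 + p * z) (hζ : ζ ^ p ^ k = 1) : ζ = 1 := by
  induction k generalizing ζ with
  | zero => simpa using hζ
  | succ k ih =>
    obtain ⟨z, hz, hζz⟩ := h
    refine root_eq_one P hp hp2 hpm hz hζz ?_
    refine ih ?_ ?_
    · refine ⟨z * ∑ i ∈ Finset.range p, ζ ^ i, ?_, ?_⟩
      · have hζP : ζ ∈ P := by
          rw [hζz]; exact add_mem (one_mem P) (mul_mem (natCast_mem P _) hz)
        exact mul_mem hz (sum_mem fun i _ => pow_mem hζP i)
      · have h1 := mul_geom_sum ζ p
        have h2 : ζ - 1 = (p : Ω) * z := by rw [hζz]; ring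
        rw [h2] at h1
        linear_combination -h1
    · rw [← pow_mul, ← pow_succ']
      exact hζ

section Key

variable {Ω : Type} [Field Ω] [CharZero Ω] (P : ValuationSubring Ω)
  {I : Type} [Group I] [MulSemiringAction I Ω]
  {N : Type} [AddCommGroup N] [DistribMulAction I N] [Finite N]

omit [CharZero Ω] in
/-- Common denominators. -/
theorem exists_common_denom (S : Subring Ω)
    (hS : ∀ t : Ω, t ∈ S ↔ t ∈ P ∧ ∀ τ : I, τ • t = t)
    {ι : Type} (s : Finset ι) (d : ι → Ω) (hd : ∀ i ∈ s, ∀ τ : I, τ • d i = d i) :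
    ∃ s0 ∈ S, s0 ≠ 0 ∧ ∀ i ∈ s, s0 * d i ∈ S := by
  classical
  induction s using Finset.induction_on with
  | empty => exact ⟨1, one_mem S, one_ne_zero, by simp⟩
  | insert i0 s hi0 ih =>
    obtain ⟨s0, hs0, hs0', hs⟩ := ih fun i hi => hd i (Finset.mem_insert_of_mem hi)
    have hfix := hd i0 (Finset.mem_insert_self _ _)
    obtain ⟨t, ht, ht0, ht'⟩ : ∃ t ∈ S, t ≠ 0 ∧ t * d i0 ∈ S := by
      rcases P.mem_or_inv_mem (d i0) with h | h
      · exact ⟨1, one_mem S, one_ne_zero, by rw [one_mul, hS]; exact ⟨h, hfix⟩⟩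
      · by_cases h0 : d i0 = 0
        · exact ⟨1, one_mem S, one_ne_zero, by rw [one_mul, h0]; exact zero_mem S⟩
        · refine ⟨(d i0)⁻¹, (hS _).mpr ⟨h, fun τ => ?_⟩, inv_ne_zero h0, ?_⟩
          · rw [smul_inv'', hfix]
          · rw [inv_mul_cancel₀ h0]; exact one_mem S
    refine ⟨s0 * t, mul_mem hs0 ht, mul_ne_zero hs0' ht0, fun i hi => ?_⟩
    rcases Finset.mem_insert.mp hi with rfl | hi
    · rw [mul_assoc]; exact mul_mem hs0 ht'
    · rw [mul_comm s0 t, mul_assoc]; exact mul_mem ht (hs i hi)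

omit [CharZero Ω] [Finite N] in
/-- Descent: equivariant functions linearly independent over `S` are linearly independent over
`Ω`. -/
theorem linearIndependent_of_equivariant (S : Subring Ω)
    (hS : ∀ t : Ω, t ∈ S ↔ t ∈ P ∧ ∀ τ : I, τ • t = t)
    {ι : Type} (a : ι → N → Ω) (ha : ∀ i (τ : I) x, a i (τ • x) = τ • a i x)
    (hli : LinearIndependent S a) : LinearIndependent Ω a := by
  classical
  rw [linearIndependent_iff']
  intro s
  induction s using Finset.induction_on with
  | empty => simp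
  | insert i0 s hi0 ih =>
    intro c hc
    by_cases h0 : c i0 = 0
    · rw [Finset.sum_insert hi0, h0, zero_smul, zero_add] at hc
      intro i hi
      rcases Finset.mem_insert.mp hi with rfl | hi
      · exact h0
      · exact ih c hc i hi
    · exfalso
      set d : ι → Ω := fun i => (c i0)⁻¹ * c i with hd
      have hd0 : d i0 = 1 := inv_mul_cancel₀ h0
      have hdc : ∑ i ∈ insert i0 s, d i • a i = 0 := by
        have := congrArg (fun f => (c i0)⁻¹ • f) hc
        simp only [Finset.smul_sum, smul_smul, smul_zero] at this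
        exact this
      have hfix : ∀ i ∈ insert i0 s, ∀ τ : I, τ • d i = d i := by
        intro i hi τ
        have hτ : ∑ i ∈ insert i0 s, (τ • d i) • a i = 0 := by
          funext x
          have h1 := congrFun hdc (τ⁻¹ • x)
          simp only [Finset.sum_apply, Pi.smul_apply, smul_eq_mul, Pi.zero_apply] at h1 ⊢
          have h2 := congrArg (fun t => τ • t) h1
          simp only [Finset.smul_sum, smul_mul', smul_zero] at h2
          rw [← h2]
          refine Finset.sum_congr rfl fun j _ => ?_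
          rw [← ha, smul_inv_smul]
        have hsub : ∑ i ∈ s, (τ • d i - d i) • a i = 0 := by
          have h3 : ∑ i ∈ insert i0 s, (τ • d i - d i) • a i = 0 := by
            simp only [sub_smul, Finset.sum_sub_distrib]
            rw [hτ, hdc, sub_zero]
          rw [Finset.sum_insert hi0, hd0, smul_one, sub_self, zero_smul, zero_add] at h3
          exact h3
        rcases Finset.mem_insert.mp hi with rfl | hi
        · rw [hd0, smul_one]
        · exact sub_eq_zero.mp (ih _ hsub i hi)
      obtain ⟨s0, hs0S, hs0, hs⟩ := exists_common_denom P S hS (insert i0 s) d hfix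
      have hrel : ∑ i ∈ (insert i0 s).attach, (⟨s0 * d i.1, hs i.1 i.2⟩ : S) • a i.1 = 0 := by
        funext x
        have h1 := congrFun hdc x
        simp only [Finset.sum_apply, Pi.smul_apply, smul_eq_mul, Pi.zero_apply] at h1 ⊢
        have h2 : ∀ i : {i // i ∈ insert i0 s}, ((⟨s0 * d i.1, hs i.1 i.2⟩ : S) • a i.1 x : Ω) =
            s0 * (d i.1 * a i.1 x) := fun i => by
          show s0 * d i.1 * a i.1 x = _
          ring
        rw [Finset.sum_congr rfl fun i _ => h2 i, Finset.sum_attach (insert i0 s)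
          (fun i => s0 * (d i * a i x)), ← Finset.mul_sum, h1, mul_zero]
      have hli' := hli.comp (fun i : {i // i ∈ insert i0 s} => i.1) Subtype.val_injective
      rw [linearIndependent_iff'] at hli'
      have h4 := hli' (insert i0 s).attach (fun i => (⟨s0 * d i.1, hs i.1 i.2⟩ : S)) hrel
        ⟨i0, Finset.mem_insert_self _ _⟩ (Finset.mem_attach _ _)
      have h5 : s0 * d i0 = 0 := congrArg Subtype.val h4
      rw [hd0, mul_one] at h5
      exact hs0 h5

/-- **Key lemma**. -/
theorem key (S : Subring Ω) [IsPrincipalIdealRing S]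
    (hS : ∀ t : Ω, t ∈ S ↔ t ∈ P ∧ ∀ τ : I, τ • t = t)
    (p : ℕ)
    (hU : ∀ t : Ω, (∀ τ : I, τ • t = t) → t ∈ P.nonunits → ∃ s ∈ P, t = p * s)
    (A : Submodule S (N → Ω)) (hfg : A.FG)
    (hAeq : ∀ a ∈ A, ∀ (τ : I) x, a (τ • x) = τ • a x)
    (hAred : ∀ a ∈ A, ∀ x, a x - a 0 ∈ P.nonunits)
    (hAspan : Submodule.span Ω (A : Set (N → Ω)) = ⊤)
    (hAmul : ∀ a ∈ A, (fun x y => a (x + y)) ∈ Submodule.span S
      {g : N → N → Ω | ∃ b ∈ A, ∃ c ∈ A, g = fun x y => b x * c y})
    (N' : AddSubgroup N) (hN' : ∀ (τ : I) x, τ • x - x ∈ N')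
    (u : N → Ω) (hu0 : u 0 = 1) (hu : ∀ x y, u (x + y) = u x * u y) (huN : ∀ n ∈ N', u n = 1)
    (x : N) : ∃ z ∈ P, u x = 1 + p * z := by
  classical
  have : Fintype N := Fintype.ofFinite N
  -- the submodule of `N'`-invariant functions
  let B : Submodule S A :=
    { carrier := {a | ∀ x, ∀ n ∈ N', (a : N → Ω) (x + n) = (a : N → Ω) x}
      zero_mem' := fun x n _ => rfl
      add_mem' := fun {a b} ha hb x n hn => by
        show (a : N → Ω) (x + n) + (b : N → Ω) (x + n) = (a : N → Ω) x + (b : N → Ω) x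
        rw [ha x n hn, hb x n hn]
      smul_mem' := fun c a ha x n hn => by
        show c • ((a : N → Ω) (x + n)) = c • ((a : N → Ω) x)
        rw [ha x n hn] }
  have hBmem : ∀ a : A, a ∈ B ↔ ∀ x, ∀ n ∈ N', (a : N → Ω) (x + n) = (a : N → Ω) x := fun a => Iff.rfl
  have : Module.Finite S A := Module.Finite.iff_fg.mpr hfg
  have hSdom : IsDomain S := inferInstance
  have htf : Module.IsTorsionFree S (N → Ω) := by
    constructor
    intro r hr f g hfg
    funext x
    have h1 : (r : Ω) * f x = (r : Ω) * g x := congrFun hfg x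
    have hr0 : (r : Ω) ≠ 0 := fun h => hr.ne_zero (Subtype.ext h)
    exact mul_left_cancel₀ hr0 h1
  have htfA : Module.IsTorsionFree S A := inferInstance
  have htfQ : Module.IsTorsionFree S (A ⧸ B) := by
    constructor
    intro r hr q q' hq
    have hr0 : (r : Ω) ≠ 0 := fun h => hr.ne_zero (Subtype.ext h)
    obtain ⟨a, rfl⟩ := Submodule.Quotient.mk_surjective B q
    obtain ⟨a', rfl⟩ := Submodule.Quotient.mk_surjective B q'
    rw [Submodule.Quotient.eq]
    have h1 : r • (a - a') ∈ B := by
      have h2 : (Submodule.Quotient.mk (r • a) : A ⧸ B) = Submodule.Quotient.mk (r • a') := hq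
      rw [Submodule.Quotient.eq] at h2
      rwa [smul_sub]
    rw [hBmem] at h1 ⊢
    intro x n hn
    have h3 : (r : Ω) * ((a - a' : A) : N → Ω) (x + n) = (r : Ω) * ((a - a' : A) : N → Ω) x :=
      h1 x n hn
    exact mul_left_cancel₀ hr0 h3
  have hnoeth : IsNoetherian S A := isNoetherian_of_isNoetherianRing_of_finite S A
  have hfinB : Module.Finite S B := Module.Finite.iff_fg.mpr (IsNoetherian.noetherian B)
  have hfinQ : Module.Finite S (A ⧸ B) := Module.Finite.quotient S B
  have htfB : Module.IsTorsionFree S B := inferInstance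
  have hfreeB : Module.Free S B := Module.free_of_finite_type_torsion_free' (R := S) (M := B)
  have hfreeQ : Module.Free S (A ⧸ B) := Module.free_of_finite_type_torsion_free'
  let bB := Module.Free.chooseBasis S B
  let bQ := Module.Free.chooseBasis S (A ⧸ B)
  let b := bB.sumQuot bQ
  let ι := Module.Free.ChooseBasisIndex S B ⊕ Module.Free.ChooseBasisIndex S (A ⧸ B)
  let a : ι → N → Ω := fun i => ((b i : A) : N → Ω)
  have haA : ∀ i, a i ∈ A := fun i => (b i).2
  have hliS : LinearIndependent S a :=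
    b.linearIndependent.map' A.subtype (Submodule.ker_subtype A)
  have hliΩ : LinearIndependent Ω a :=
    linearIndependent_of_equivariant P S hS a (fun i τ x => hAeq _ (haA i) τ x) hliS
  have hexp : ∀ f ∈ A, ∃ m : ι → S, ∀ x, f x = ∑ i, (m i : Ω) * a i x := by
    intro f hf
    refine ⟨fun i => b.repr ⟨f, hf⟩ i, fun x => ?_⟩
    have h1 := b.sum_repr ⟨f, hf⟩
    have h2 := congrArg (fun g : A => (g : N → Ω) x) h1
    simp only [Submodule.coe_sum, Submodule.coe_smul, Finset.sum_apply, Pi.smul_apply] at h2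
    rw [← h2]
    rfl
  have hexpB : ∀ f, f ∈ A → (∀ x, ∀ n ∈ N', f (x + n) = f x) →
      f ∈ Submodule.span Ω (Set.range (fun i : Module.Free.ChooseBasisIndex S B => a (Sum.inl i))) := by
    intro f hf hinv
    rw [Submodule.mem_span_range_iff_exists_fun]
    refine ⟨fun i => (bB.repr ⟨⟨f, hf⟩, hinv⟩ i : S), ?_⟩
    have h1 := bB.sum_repr ⟨⟨f, hf⟩, hinv⟩
    funext x
    have h2 := congrArg (fun g : B => ((g : A) : N → Ω) x) h1
    simp only [Submodule.coe_sum, Submodule.coe_smul, Finset.sum_apply, Pi.smul_apply] at h2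
    rw [← h2, Finset.sum_apply]
    refine Finset.sum_congr rfl fun i _ => ?_
    have h3 : a (Sum.inl i) = ((bB i : A) : N → Ω) := by
      show (((bB.sumQuot bQ) (Sum.inl i) : A) : N → Ω) = _
      rw [Module.Basis.sumQuot_inl]
    rw [h3]
    rfl
  have hspanA : Submodule.span Ω (Set.range a) = ⊤ := by
    rw [eq_top_iff, ← hAspan, Submodule.span_le]
    intro f hf
    obtain ⟨m, hm⟩ := hexp f hf
    show f ∈ Submodule.span Ω (Set.range a)
    rw [Submodule.mem_span_range_iff_exists_fun]
    refine ⟨fun i => (m i : Ω), funext fun x => ?_⟩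
    rw [hm x, Finset.sum_apply]
    rfl
  -- indicator functions of cosets
  let δ : N → N → Ω := fun c x => if x - c ∈ N' then 1 else 0
  have hδmem : ∀ c, δ c ∈ Submodule.span Ω
      (Set.range (fun i : Module.Free.ChooseBasisIndex S B => a (Sum.inl i))) := by
    intro c
    have h1 : δ c ∈ Submodule.span Ω (Set.range a) := by rw [hspanA]; exact Submodule.mem_top
    rw [Submodule.mem_span_range_iff_exists_fun] at h1
    obtain ⟨m, hm⟩ := h1
    have hinvδ : ∀ x y, x - y ∈ N' → δ c x = δ c y := by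
      intro x y hxy
      show (if x - c ∈ N' then (1 : Ω) else 0) = if y - c ∈ N' then 1 else 0
      have : x - c ∈ N' ↔ y - c ∈ N' := by
        rw [show x - c = (x - y) + (y - c) by abel]
        exact AddSubgroup.add_mem_cancel_left N' hxy
      simp only [this]
    have hδfix : ∀ x, ∀ τ : I, τ • δ c x = δ c x := by
      intro x τ
      show τ • (if x - c ∈ N' then (1 : Ω) else 0) = if x - c ∈ N' then 1 else 0
      split_ifs
      · rw [smul_one]
      · rw [smul_zero]
    have hfix : ∀ i ∈ Finset.univ, ∀ τ : I, τ • m i = m i := by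
      intro i _ τ
      have h2 : ∑ i, (τ • m i - m i) • a i = 0 := by
        funext x
        have h3 := congrFun hm (τ⁻¹ • x)
        have h4 := congrFun hm x
        simp only [Finset.sum_apply, Pi.smul_apply, smul_eq_mul, Pi.zero_apply, sub_mul,
          Finset.sum_sub_distrib] at h3 h4 ⊢
        have h5 := congrArg (fun t => τ • t) h3
        simp only [Finset.smul_sum, smul_mul'] at h5
        have h6 : ∀ i, τ • a i (τ⁻¹ • x) = a i x := fun i => by
          rw [← hAeq _ (haA i), smul_inv_smul]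
        simp only [h6] at h5
        rw [h5, h4, hδfix, hinvδ _ _ (hN' τ⁻¹ x), sub_self]
      rw [linearIndependent_iff'] at hliΩ
      exact sub_eq_zero.mp (hliΩ Finset.univ _ h2 i (Finset.mem_univ i))
    obtain ⟨s0, hs0S, hs0, hs⟩ := exists_common_denom P S hS Finset.univ m hfix
    have h7 : s0 • δ c ∈ A := by
      have h8 : s0 • δ c = ∑ i, (⟨s0 * m i, hs i (Finset.mem_univ i)⟩ : S) • a i := by
        rw [← hm, Finset.smul_sum]
        refine Finset.sum_congr rfl fun i _ => ?_
        rw [smul_smul]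
        rfl
      rw [h8]
      exact Submodule.sum_mem _ fun i _ => Submodule.smul_mem _ _ (haA i)
    have h9 := hexpB (s0 • δ c) h7 (fun x n hn => by
      rw [Pi.smul_apply, Pi.smul_apply, hinvδ (x + n) x (by simpa using hn)])
    have h10 := Submodule.smul_mem _ s0⁻¹ h9
    rwa [smul_smul, inv_mul_cancel₀ hs0, one_smul] at h10
  have huinv : ∀ x y, x - y ∈ N' → u x = u y := by
    intro x y hxy
    have : x = (x - y) + y := by abel
    rw [this, hu, huN _ hxy, one_mul]
  have humem : u ∈ Submodule.span Ω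
      (Set.range (fun i : Module.Free.ChooseBasisIndex S B => a (Sum.inl i))) := by
    have hcard : ((Fintype.card N' : ℕ) : Ω) ≠ 0 := by
      exact_mod_cast Fintype.card_ne_zero
    have h1 : u = ∑ c, ((Fintype.card N' : ℕ) : Ω)⁻¹ • (u c • δ c) := by
      funext x
      have h2 : ∀ c, u c * δ c x = if x - c ∈ N' then u x else 0 := by
        intro c
        show u c * (if x - c ∈ N' then (1 : Ω) else 0) = _
        split_ifs with h
        · rw [mul_one, huinv x c h]
        · rw [mul_zero]
      have h3 : ∑ c, (if x - c ∈ N' then u x else 0) = (Fintype.card N' : Ω) * u x := by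
        have h4 := (Equiv.subLeft x).sum_comp (fun c' => if c' ∈ N' then u x else 0)
        simp only [Equiv.subLeft_apply] at h4
        rw [h4, ← Finset.sum_filter, Finset.sum_const, nsmul_eq_mul, Fintype.card_subtype]
      simp only [Finset.sum_apply, Pi.smul_apply, smul_eq_mul]
      rw [← Finset.mul_sum, Finset.sum_congr rfl fun c _ => h2 c, h3, ← mul_assoc,
        inv_mul_cancel₀ hcard, one_mul]
    rw [h1]
    exact Submodule.sum_mem _ fun c _ => Submodule.smul_mem _ _ (Submodule.smul_mem _ _ (hδmem c))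
  rw [Submodule.mem_span_range_iff_exists_fun] at humem
  obtain ⟨c, hc⟩ := humem
  -- structure constants
  have hstr : ∀ i, ∃ m : ι → ι → S, ∀ x y, a i (x + y) = ∑ j, ∑ k, (m j k : Ω) * (a j x * a k y) := by
    intro i
    have hle : Submodule.span S {g : N → N → Ω | ∃ b ∈ A, ∃ c ∈ A, g = fun x y => b x * c y} ≤
        Submodule.span S (Set.range fun jk : ι × ι => (fun x y => a jk.1 x * a jk.2 y)) := by
      rw [Submodule.span_le]
      rintro _ ⟨f, hf, g, hg, rfl⟩
      obtain ⟨mf, hmf⟩ := hexp f hf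
      obtain ⟨mg, hmg⟩ := hexp g hg
      show (fun x y => f x * g y) ∈ Submodule.span S _
      rw [Submodule.mem_span_range_iff_exists_fun]
      refine ⟨fun jk => mf jk.1 * mg jk.2, ?_⟩
      funext x y
      rw [hmf, hmg, Finset.sum_mul_sum, Finset.sum_apply, Finset.sum_apply,
        Fintype.sum_prod_type]
      refine Finset.sum_congr rfl fun j _ => Finset.sum_congr rfl fun k _ => ?_
      show ((mf j * mg k : S) : Ω) * (a j x * a k y) = _
      push_cast
      ring
    have h1 := hle (hAmul (a i) (haA i))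
    rw [Submodule.mem_span_range_iff_exists_fun] at h1
    obtain ⟨m, hm⟩ := h1
    refine ⟨fun j k => m (j, k), fun x y => ?_⟩
    have h2 := congrFun (congrFun hm x) y
    rw [Finset.sum_apply, Finset.sum_apply, Fintype.sum_prod_type] at h2
    exact h2.symm
  choose m hm using hstr
  -- uniqueness of coefficients
  have huniq : ∀ d : ι → ι → Ω, (∀ x y, ∑ j, ∑ k, d j k * (a j x * a k y) = 0) →
      ∀ j k, d j k = 0 := by
    intro d hd j k
    rw [linearIndependent_iff'] at hliΩ
    have h1 : ∀ y j, ∑ k, d j k * a k y = 0 := by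
      intro y j
      refine hliΩ Finset.univ (fun j => ∑ k, d j k * a k y) ?_ j (Finset.mem_univ j)
      funext x
      simp only [Finset.sum_apply, Pi.smul_apply, smul_eq_mul, Pi.zero_apply]
      rw [← hd x y]
      refine Finset.sum_congr rfl fun j _ => ?_
      rw [Finset.sum_mul]
      refine Finset.sum_congr rfl fun k _ => ?_
      ring
    refine hliΩ Finset.univ (fun k => d j k) ?_ k (Finset.mem_univ k)
    funext y
    simp only [Finset.sum_apply, Pi.smul_apply, smul_eq_mul, Pi.zero_apply]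
    exact h1 y j
  -- the coefficients, extended by zero
  let e : ι → Ω := Sum.elim c fun _ => 0
  have he : ∀ x, u x = ∑ i, e i * a i x := by
    intro x
    rw [← hc, Finset.sum_apply, Fintype.sum_sum_type]
    have : ∑ j : Module.Free.ChooseBasisIndex S (A ⧸ B), e (Sum.inr j) * a (Sum.inr j) x = 0 :=
      Finset.sum_eq_zero fun j _ => zero_mul _
    rw [this, add_zero]
    rfl
  have heq : ∀ j k, ∑ i, e i * (m i j k : Ω) = e j * e k := by
    have h1 := huniq (fun j k => ∑ i, e i * (m i j k : Ω) - e j * e k) (fun x y => by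
      have h2 := hu x y
      rw [he, he x, he y] at h2
      simp only [hm] at h2
      have h3 : ∑ i, e i * ∑ j, ∑ k, (m i j k : Ω) * (a j x * a k y) =
          ∑ j, ∑ k, (∑ i, e i * (m i j k : Ω)) * (a j x * a k y) := by
        simp only [Finset.mul_sum, Finset.sum_mul]
        rw [Finset.sum_comm]
        refine Finset.sum_congr rfl fun j _ => ?_
        rw [Finset.sum_comm]
        refine Finset.sum_congr rfl fun k _ => Finset.sum_congr rfl fun i _ => ?_
        ring
      have h4 : (∑ i, e i * a i x) * ∑ i, e i * a i y =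
          ∑ j, ∑ k, (e j * e k) * (a j x * a k y) := by
        rw [Finset.sum_mul_sum]
        refine Finset.sum_congr rfl fun j _ => Finset.sum_congr rfl fun k _ => ?_
        ring
      rw [h3, h4] at h2
      simp only [sub_mul, Finset.sum_sub_distrib]
      rw [h2, sub_self])
    intro j k
    exact sub_eq_zero.mp (h1 j k)
  have heP : ∀ i, e i ∈ P := by
    by_contra hcon
    push Not at hcon
    obtain ⟨i1, hi1⟩ := hcon
    obtain ⟨i0, -, hi0⟩ := Finset.exists_max_image (Finset.univ : Finset ι)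
      (fun i => P.valuation (e i)) ⟨i1, Finset.mem_univ _⟩
    have hi0P : e i0 ∉ P := by
      intro h
      apply hi1
      rw [← P.valuation_le_one_iff] at h ⊢
      exact (hi0 i1 (Finset.mem_univ _)).trans h
    have hne : e i0 ≠ 0 := fun h => hi0P (h ▸ zero_mem P)
    have hd : ∀ i, e i / e i0 ∈ P := by
      intro i
      rw [← P.valuation_le_one_iff, map_div₀]
      exact div_le_one_of_le₀ (hi0 i (Finset.mem_univ _)) zero_le
    apply hi0P
    have h1 := heq i0 i0
    have h2 : e i0 = ∑ i, (e i / e i0) * (m i i0 i0 : Ω) := by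
      have h3 : e i0 * e i0 = e i0 * ∑ i, (e i / e i0) * (m i i0 i0 : Ω) := by
        rw [← h1, Finset.mul_sum]
        refine Finset.sum_congr rfl fun i _ => ?_
        field_simp
      exact mul_left_cancel₀ hne h3
    rw [h2]
    exact sum_mem fun i _ => mul_mem (hd i) ((hS _).mp (m i i0 i0).2).1
  -- conclusion
  have hbi : ∀ i x, ∃ z ∈ P, a (Sum.inl i) x - a (Sum.inl i) 0 = p * z := by
    intro i x
    have h3 : a (Sum.inl i) = ((bB i : A) : N → Ω) := by
      show (((bB.sumQuot bQ) (Sum.inl i) : A) : N → Ω) = _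
      rw [Module.Basis.sumQuot_inl]
    have hinv : ∀ x, ∀ n ∈ N', a (Sum.inl i) (x + n) = a (Sum.inl i) x := by
      rw [h3]
      exact (bB i).2
    have hfix : ∀ (τ : I) x, τ • a (Sum.inl i) x = a (Sum.inl i) x := by
      intro τ x
      rw [← hAeq _ (haA _)]
      have : τ • x = x + (τ • x - x) := by abel
      rw [this, hinv _ _ (hN' τ x)]
    refine hU _ (fun τ => ?_) (hAred _ (haA _) x)
    rw [smul_sub, hfix, hfix]
  choose z hzP hz using hbi
  refine ⟨∑ i, c i * z i x, sum_mem fun i _ => mul_mem (heP (Sum.inl i)) (hzP i x), ?_⟩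
  have h1 : u x - u 0 = p * ∑ i, c i * z i x := by
    rw [← hc, Finset.sum_apply, Finset.sum_apply, ← Finset.sum_sub_distrib, Finset.mul_sum]
    refine Finset.sum_congr rfl fun i _ => ?_
    have h2 := hz i x
    simp only [Pi.smul_apply, smul_eq_mul]
    linear_combination (c i) * h2
  rw [← h1, hu0]
  ring

end Key

end Fermat.Agent.FlatOrd.Key
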