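import Mathlib
import Fermat.Agent.QbarInst
import Fermat.Agent.FrobExists
import Fermat.Agent.FrobPlaceLift
import Fermat.Agent.FlatOrd.InertiaLift

/-!
# The inertia field is unramified
-/

set_option autoImplicit false

open Pointwise NumberField Ideal
open Fermat.Agent.FrobExists Fermat.Agent.FrobPlaceLift

namespace Fermat.Agent.FlatOrd.Unramified

section finiteLevel

/-- Let `K` be a number field Galois over `ℚ`, `P` a nonzero prime of `𝓞 K`, and `E` the inertia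
field of `P`. Then `P ∩ 𝓞 E` has ramification index `1` over `ℤ`. -/
theorem ramificationIdx_under_eq_one (K : Type) [Field K] [NumberField K] [IsGalois ℚ K]
    (P : Ideal (𝓞 K)) [P.IsPrime] (hP : P ≠ ⊥)
    (E : IntermediateField ℚ K) (hE : E = FixedPoints.intermediateField (P.inertia Gal(K/ℚ))) :
    (P.under (𝓞 E)).ramificationIdx ℤ = 1 := by
  have hmax : P.IsMaximal := Ring.DimensionLEOne.maximalOfPrime hP inferInstance
  let p : Ideal ℤ := P.under ℤ
  have hp : p ≠ ⊥ := by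
    intro h
    exact hP (Ideal.eq_bot_of_comap_eq_bot (R := ℤ) h)
  let q : Ideal (𝓞 E) := P.under (𝓞 E)
  have hIF : IsInertiaField ℚ K P E := by
    subst hE
    infer_instance
  have h1 : IsGaloisGroup (P.inertia Gal(K/ℚ)) E K := hIF.toIsGaloisGroup
  have h2 : IsGaloisGroup (P.inertia Gal(K/ℚ)) (𝓞 E) (𝓞 K) :=
    .of_isFractionRing _ _ _ E K
  have hq : q.IsPrime := inferInstance
  have hpp : p.IsPrime := inferInstance
  have hq0 : q ≠ ⊥ := fun h => hP (Ideal.eq_bot_of_comap_eq_bot (R := 𝓞 E) h)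
  have hqm : q.IsMaximal := Ring.DimensionLEOne.maximalOfPrime hq0 hq
  have hpm : p.IsMaximal := Ring.DimensionLEOne.maximalOfPrime hp hpp
  have hfp : Finite (ℤ ⧸ p) := Ring.HasFiniteQuotients.finiteQuotient hp
  have hfq : Finite (𝓞 E ⧸ q) := Ring.HasFiniteQuotients.finiteQuotient hq0
  have hLq : P.LiesOver q := ⟨rfl⟩
  have hLp : P.LiesOver p := ⟨rfl⟩
  have h0 : IsGaloisGroup Gal(K/ℚ) ℤ (𝓞 K) := .of_isFractionRing _ _ _ ℚ K
  have h3 : Nat.card (P.inertia (P.inertia Gal(K/ℚ))) = ramificationIdxIn q (𝓞 K) :=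
    card_inertia_eq_ramificationIdxIn q P
  have h4 : Nat.card (P.inertia Gal(K/ℚ)) = ramificationIdxIn p (𝓞 K) :=
    card_inertia_eq_ramificationIdxIn p P
  have h5 : P.inertia (P.inertia Gal(K/ℚ)) = ⊤ := by
    rw [eq_top_iff]
    intro σ _ x
    exact σ.2 x
  rw [h5, Subgroup.card_top, h4, ramificationIdxIn_eq_ramificationIdx q P (P.inertia Gal(K/ℚ)),
    ramificationIdxIn_eq_ramificationIdx p P Gal(K/ℚ)] at h3
  have h6 := ramificationIdx_tower (R := ℤ) q P
  rw [h3] at h6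
  exact (right_eq_mul₀ (P.ramificationIdx_pos (𝓞 E)).ne').mp h6

/-- If `q` has ramification index one over `(ℓ)`, then `ℓ` is a uniformizer at `q`. -/
theorem exists_mul_eq_of_ramificationIdx_eq_one {S : Type} [CommRing S] [IsDomain S] (q : Ideal S)
    [q.IsPrime] (ℓ : ℤ) (hℓ : q.under ℤ = Ideal.span {ℓ}) (hq : q.ramificationIdx ℤ = 1)
    {a : S} (ha : a ∈ q) : ∃ s c : S, s ∉ q ∧ a * s = ℓ * c := by
  rw [ramificationIdx_def, ENat.toNat_eq_iff_eq_natCast, Nat.cast_one,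
    Module.length_eq_one_iff, isSimpleModule_iff_isCoatom, ← Ideal.isMaximal_def,
    IsLocalRing.isMaximal_iff, hℓ, Ideal.map_span, Set.image_singleton] at hq
  have h1 : algebraMap S (Localization.AtPrime q) a ∈
      IsLocalRing.maximalIdeal (Localization.AtPrime q) := by
    rwa [IsLocalization.AtPrime.to_map_mem_maximal_iff (Localization.AtPrime q) q]
  rw [← hq, Ideal.mem_span_singleton] at h1
  obtain ⟨z, hz⟩ := h1
  obtain ⟨c, s, rfl⟩ := IsLocalization.exists_mk'_eq q.primeCompl z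
  have hinj : Function.Injective (algebraMap S (Localization.AtPrime q)) :=
    IsLocalization.injective _ q.primeCompl_le_nonZeroDivisors
  refine ⟨s, c, s.2, hinj ?_⟩
  rw [map_mul, map_mul, hz, mul_assoc, IsLocalization.mk'_spec]
  simp

end finiteLevel

section place

/-- Elements of a finite Galois extension `K` of `ℚ` (inside `ℚ̄`) fixed by the inertia group of a
place `A` of `ℚ̄` are fixed by the inertia group of the prime of `𝓞 K` below `A`. -/
theorem fixed_of_fixed (A : ValuationSubring (AlgebraicClosure ℚ)) {ℓ : ℕ} (hℓ : ℓ.Prime)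
    (hA : A.LiesOverPrime ℓ) (K : IntermediateField ℚ (AlgebraicClosure ℚ)) [Normal ℚ K]
    (t : K) (ht : ∀ σ ∈ A.inertiaSubgroupIn ℚ, σ (t : AlgebraicClosure ℚ) = t)
    (τ : K ≃ₐ[ℚ] K) (hτ : τ ∈ (centerOn K A).inertia (K ≃ₐ[ℚ] K)) : τ t = t := by
  obtain ⟨g, rfl⟩ := AlgEquiv.restrictNormalHom_surjective (F := ℚ) (K₁ := K)
    (E := AlgebraicClosure ℚ) τ
  have hg : ∀ x : integralClosure ℤ (AlgebraicClosure ℚ), (x : AlgebraicClosure ℚ) ∈ K →
      g • x - x ∈ center A := by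
    intro x hx
    have hint : IsIntegral ℤ (⟨x, hx⟩ : K) :=
      (isIntegral_algebraMap_iff (algebraMap K (AlgebraicClosure ℚ)).injective).mp x.2
    have h1 := hτ (⟨⟨x, hx⟩, hint⟩ : 𝓞 K)
    rw [Submodule.mem_toAddSubgroup, mem_centerOn] at h1
    refine (mem_center A _).mpr ?_
    convert h1 using 1
    have h2 := AlgEquiv.restrictNormal_commutes g K (⟨x, hx⟩ : K)
    have h3 : algebraMap K (AlgebraicClosure ℚ) ⟨x, hx⟩ = (x : AlgebraicClosure ℚ) := rfl
    rw [h3] at h2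
    show g (x : AlgebraicClosure ℚ) - x = algebraMap K _ (AlgEquiv.restrictNormal g K ⟨x, hx⟩) - x
    rw [h2]
  obtain ⟨σ, hσ, hσg⟩ := InertiaLift.exists_mul_mem_inertia_of_intermediateField K A hℓ hA g hg
  apply (algebraMap K (AlgebraicClosure ℚ)).injective
  have h4 := AlgEquiv.restrictNormal_commutes g K t
  show algebraMap K _ (AlgEquiv.restrictNormal g K t) = _
  rw [h4]
  have h5 := hσg (t : AlgebraicClosure ℚ) t.2
  rw [ht σ hσ] at h5
  exact h5.symm

/-- **The inertia field is unramified**: an element of `ℚ̄` fixed by the inertia group of a place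
`A` over `ℓ` and lying in the maximal ideal of `A` is divisible by `ℓ` in `A`. -/
theorem exists_eq_mul_of_fixed (A : ValuationSubring (AlgebraicClosure ℚ)) {ℓ : ℕ} (hℓ : ℓ.Prime)
    (hA : A.LiesOverPrime ℓ) (t : AlgebraicClosure ℚ)
    (ht : ∀ σ ∈ A.inertiaSubgroupIn ℚ, σ t = t) (htm : t ∈ A.nonunits) :
    ∃ s ∈ A, t = ℓ * s := by
  let K : IntermediateField ℚ (AlgebraicClosure ℚ) :=
    IntermediateField.normalClosure ℚ (IntermediateField.adjoin ℚ {t}) (AlgebraicClosure ℚ)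
  have hfin0 : FiniteDimensional ℚ (IntermediateField.adjoin ℚ {t}) :=
    IntermediateField.adjoin.finiteDimensional (Algebra.IsAlgebraic.isAlgebraic t).isIntegral
  have hfin : FiniteDimensional ℚ K := normalClosure.is_finiteDimensional _ _ _
  have hnormal : Normal ℚ K := normalClosure.normal _ _ _
  have hgal : IsGalois ℚ K := ⟨⟩
  have hNF : NumberField K := { to_finiteDimensional := hfin }
  have htK : t ∈ K := IntermediateField.le_normalClosure _
    (IntermediateField.mem_adjoin_simple_self ℚ t)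
  let P : Ideal (𝓞 K) := centerOn K A
  have hP : P ≠ ⊥ := by
    intro h
    have h1 : ((ℓ : 𝓞 K)) ∈ P := by
      rw [mem_centerOn]; simpa using! hA
    rw [h, Ideal.mem_bot] at h1
    exact hℓ.ne_zero (by exact_mod_cast h1)
  let E : IntermediateField ℚ K := FixedPoints.intermediateField (P.inertia Gal(K/ℚ))
  have hram := ramificationIdx_under_eq_one K P hP E rfl
  have htE : (⟨t, htK⟩ : K) ∈ E := fun ⟨τ, hτ⟩ => fixed_of_fixed A hℓ hA K ⟨t, htK⟩ ht τ hτ
  have hNFE : NumberField E := inferInstance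
  let f : E →+* AlgebraicClosure ℚ := (algebraMap K (AlgebraicClosure ℚ)).comp (algebraMap E K)
  obtain ⟨a, b, hb, hab⟩ := key_numberField E (A.comap f) (ℓ := ℓ) hℓ.ne_zero
    (by rw [mem_nonunits_comap, map_natCast]; exact hA) (y := ⟨⟨t, htK⟩, htE⟩)
    (by rw [ValuationSubring.mem_comap]; exact A.nonunits_subset htm)
  rw [mem_nonunits_comap] at hb
  have hab' : t * f b = f a := by
    have := congrArg f hab
    rwa [map_mul] at this
  have hmem : ∀ x : 𝓞 E, f x ∈ A := fun x =>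
    mem_of_isIntegral A ((RingOfIntegers.isIntegral_coe x).map f.toIntAlgHom)
  have hq : ∀ x : 𝓞 E, x ∈ P.under (𝓞 E) ↔ f x ∈ A.nonunits := fun x => by
    rw [Ideal.mem_comap, mem_centerOn]
    rfl
  have haq : a ∈ P.under (𝓞 E) := by
    rw [hq, ← hab', mul_comm]
    exact mul_mem_nonunits A (hmem b) htm
  have hunder : (P.under (𝓞 E)).under ℤ = Ideal.span {(ℓ : ℤ)} := by
    rw [Ideal.under_under]
    exact (centerOn_liesOver K A hℓ hA).over.symm
  obtain ⟨s, c, hs, hsc⟩ := exists_mul_eq_of_ramificationIdx_eq_one (P.under (𝓞 E)) ℓ hunder hram haq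
  have hsc' : f a * f s = ℓ * f c := by
    have := congrArg (fun x : 𝓞 E => f x) hsc
    simpa using this
  rw [hq] at hs
  have hfb0 : f b ≠ 0 := fun h => hb (h ▸ by simp)
  have hfs0 : f s ≠ 0 := fun h => hs (h ▸ by simp)
  have hbinv : (f b)⁻¹ ∈ A := by
    rw [ValuationSubring.mem_nonunits_iff_or] at hb
    push Not at hb
    exact hb.2
  have hsinv : (f s)⁻¹ ∈ A := by
    rw [ValuationSubring.mem_nonunits_iff_or] at hs
    push Not at hs
    exact hs.2
  refine ⟨f c * (f b)⁻¹ * (f s)⁻¹, A.mul_mem _ _ (A.mul_mem _ _ (hmem c) hbinv) hsinv, ?_⟩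
  field_simp
  rw [hab', hsc']

/-- The ring of elements of a place `A` of `ℚ̄` fixed by its inertia group. -/
def inertiaRing (A : ValuationSubring (AlgebraicClosure ℚ)) : Subring (AlgebraicClosure ℚ) where
  carrier := {t | t ∈ A ∧ ∀ σ : A.inertiaSubgroupIn ℚ, σ • t = t}
  mul_mem' := fun {a b} ha hb => ⟨A.mul_mem _ _ ha.1 hb.1, fun σ => by
    rw [smul_mul', ha.2, hb.2]⟩
  one_mem' := ⟨A.one_mem, fun σ => smul_one σ⟩
  add_mem' := fun {a b} ha hb => ⟨A.add_mem _ _ ha.1 hb.1, fun σ => by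
    rw [smul_add, ha.2, hb.2]⟩
  zero_mem' := ⟨A.zero_mem, fun σ => smul_zero σ⟩
  neg_mem' := fun {a} ha => ⟨A.neg_mem _ ha.1, fun σ => by rw [smul_neg, ha.2]⟩

theorem mem_inertiaRing (A : ValuationSubring (AlgebraicClosure ℚ)) (t : AlgebraicClosure ℚ) :
    t ∈ inertiaRing A ↔ t ∈ A ∧ ∀ σ : A.inertiaSubgroupIn ℚ, σ • t = t := Iff.rfl

/-- A nonzero element of `ℚ̄` is not infinitely divisible by `ℓ` at a place over `ℓ`. -/
theorem exists_div_pow_notMem (A : ValuationSubring (AlgebraicClosure ℚ)) {ℓ : ℕ} (hℓ : ℓ.Prime)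
    (hA : A.LiesOverPrime ℓ) (t : AlgebraicClosure ℚ) (ht0 : t ≠ 0) :
    ∃ n : ℕ, t / (ℓ : AlgebraicClosure ℚ) ^ n ∉ A := by
  by_contra hcon
  push Not at hcon
  have htA : t ∈ A := by simpa using hcon 0
  have halg : IsAlgebraic ℤ (⟨t, htA⟩ : A) := by
    have h1 : IsAlgebraic ℚ t := Algebra.IsAlgebraic.isAlgebraic t
    have h2 : IsAlgebraic ℤ t := (IsFractionRing.isAlgebraic_iff ℤ ℚ (AlgebraicClosure ℚ)).mpr h1
    obtain ⟨p, hp0, hp⟩ := h2
    refine ⟨p, hp0, Subtype.ext ?_⟩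
    have h3 := Polynomial.aeval_algebraMap_apply (AlgebraicClosure ℚ) (⟨t, htA⟩ : A) p
    have h4 : algebraMap A (AlgebraicClosure ℚ) ⟨t, htA⟩ = t := rfl
    rw [h4, hp] at h3
    exact h3.symm
  obtain ⟨r, hr0, hr⟩ := halg.exists_nonzero_dvd (mem_nonZeroDivisors_of_ne_zero
    (fun h => ht0 (congrArg Subtype.val h)))
  obtain ⟨⟨c, hc⟩, hrc⟩ := hr
  have hrc' : (r : AlgebraicClosure ℚ) = t * c := congrArg Subtype.val hrc
  obtain ⟨n, u, hu, hru⟩ : ∃ (n : ℕ) (u : ℤ), ¬ (ℓ : ℤ) ∣ u ∧ r = (ℓ : ℤ) ^ n * u := by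
    have hfin : FiniteMultiplicity (ℓ : ℤ) r :=
      Int.finiteMultiplicity_iff.mpr ⟨by simpa using hℓ.one_lt.ne', hr0⟩
    obtain ⟨u, hu, hu'⟩ := hfin.exists_eq_pow_mul_and_not_dvd
    exact ⟨_, u, hu', hu⟩
  have hℓ0 : (ℓ : AlgebraicClosure ℚ) ≠ 0 := by exact_mod_cast hℓ.ne_zero
  have h5 := A.mul_mem _ _ (hcon (n + 1)) hc
  have h6 : t / (ℓ : AlgebraicClosure ℚ) ^ (n + 1) * c = u / ℓ := by
    rw [div_mul_eq_mul_div, ← hrc', hru]
    push_cast
    field_simp
    ring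
  rw [h6] at h5
  -- `u` is prime to `ℓ`
  have hcop : IsCoprime (ℓ : ℤ) u := by
    rw [Int.isCoprime_iff_gcd_eq_one]
    rcases (Nat.dvd_prime hℓ).mp (Int.gcd_dvd_natAbs_left (ℓ : ℤ) u) with h | h
    · exact h
    · exfalso
      apply hu
      have := Int.gcd_dvd_right (ℓ : ℤ) u
      rwa [h] at this
  obtain ⟨x, y, hxy⟩ := hcop
  have h7 : (1 : AlgebraicClosure ℚ) / ℓ = x + y * (u / ℓ) := by
    have : (x : AlgebraicClosure ℚ) * ℓ + y * u = 1 := by exact_mod_cast hxy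
    field_simp
    rw [← this]
    ring
  have h8 : (1 : AlgebraicClosure ℚ) / ℓ ∈ A := by
    rw [h7]
    exact A.add_mem _ _ (intCast_mem A x) (A.mul_mem _ _ (intCast_mem A y) h5)
  rw [one_div] at h8
  have h9 : (ℓ : AlgebraicClosure ℚ) ∈ A.nonunits := hA
  rw [ValuationSubring.mem_nonunits_iff_or] at h9
  rcases h9 with h9 | h9
  · exact hℓ0 h9
  · exact h9 h8

theorem inertiaRing_isDiscreteValuationRing (A : ValuationSubring (AlgebraicClosure ℚ)) {ℓ : ℕ}
    (hℓ : ℓ.Prime) (hA : A.LiesOverPrime ℓ) : IsDiscreteValuationRing (inertiaRing A) := by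
  have hℓ0 : (ℓ : AlgebraicClosure ℚ) ≠ 0 := by exact_mod_cast hℓ.ne_zero
  have hfixdiv : ∀ (t s : AlgebraicClosure ℚ) (σ : A.inertiaSubgroupIn ℚ), σ • t = t → σ • s = s →
      σ • (t / s) = t / s := fun t s σ h1 h2 => by rw [smul_div₀', h1, h2]
  have hfixℓ : ∀ (σ : A.inertiaSubgroupIn ℚ) (n : ℕ), σ • ((ℓ : AlgebraicClosure ℚ) ^ n) =
      (ℓ : AlgebraicClosure ℚ) ^ n := fun σ n => by
    show (σ : AlgebraicClosure ℚ ≃ₐ[ℚ] AlgebraicClosure ℚ) _ = _
    rw [map_pow, map_natCast]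
  -- nonunits of the inertia ring
  have hnu : ∀ x : inertiaRing A, ¬ IsUnit x → (x : AlgebraicClosure ℚ) ∈ A.nonunits := by
    intro x hx
    rw [ValuationSubring.mem_nonunits_iff_or]
    by_contra hcon
    push Not at hcon
    apply hx
    refine IsUnit.of_mul_eq_one ⟨(x : AlgebraicClosure ℚ)⁻¹, hcon.2, fun σ => ?_⟩ ?_
    · rw [smul_inv'', x.2.2]
    · exact Subtype.ext (mul_inv_cancel₀ hcon.1)
  have hU : ∀ t : AlgebraicClosure ℚ, (∀ σ : A.inertiaSubgroupIn ℚ, σ • t = t) → t ∈ A.nonunits →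
      ∃ s ∈ A, t = ℓ * s := fun t ht htm =>
    exists_eq_mul_of_fixed A hℓ hA t (fun σ hσ => ht ⟨σ, hσ⟩) htm
  have hnotunit : ∀ s ∈ A, (ℓ : AlgebraicClosure ℚ) * s ≠ 1 := by
    intro s hs h
    have h9 : (ℓ : AlgebraicClosure ℚ) ∈ A.nonunits := hA
    rw [ValuationSubring.mem_nonunits_iff_or] at h9
    rcases h9 with h9 | h9
    · exact hℓ0 h9
    · exact h9 (by rwa [← eq_inv_of_mul_eq_one_right h])
  refine IsDiscreteValuationRing.ofHasUnitMulPowIrreducibleFactorization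
    ⟨(ℓ : inertiaRing A), ⟨?_, ?_⟩, ?_⟩
  · intro h
    obtain ⟨y, hy⟩ := h.exists_right_inv
    exact hnotunit y y.2.1 (by simpa using congrArg Subtype.val hy)
  · intro a b hab
    by_contra hcon
    push Not at hcon
    obtain ⟨a', ha', haa'⟩ := hU a a.2.2 (hnu a hcon.1)
    obtain ⟨b', hb', hbb'⟩ := hU b b.2.2 (hnu b hcon.2)
    have h1 : (ℓ : AlgebraicClosure ℚ) = a * b := by simpa using congrArg Subtype.val hab
    refine hnotunit (a' * b') (A.mul_mem _ _ ha' hb') ?_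
    apply mul_left_cancel₀ hℓ0
    rw [mul_one]
    conv_rhs => rw [h1, haa', hbb']
    ring
  · intro x hx
    have hx0 : (x : AlgebraicClosure ℚ) ≠ 0 := fun h => hx (Subtype.ext h)
    classical
    have hex := exists_div_pow_notMem A hℓ hA x hx0
    obtain ⟨n, hn⟩ : ∃ n, Nat.find hex = n + 1 := by
      refine ⟨Nat.find hex - 1, ?_⟩
      have : Nat.find hex ≠ 0 := by
        intro h
        have h1 := Nat.find_spec hex
        rw [h, pow_zero, div_one] at h1
        exact h1 x.2.1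
      omega
    have h1 : (x : AlgebraicClosure ℚ) / (ℓ : AlgebraicClosure ℚ) ^ n ∈ A := by
      by_contra h
      have := Nat.find_min' hex h
      omega
    have h2 : (x : AlgebraicClosure ℚ) / (ℓ : AlgebraicClosure ℚ) ^ (n + 1) ∉ A := by
      rw [← hn]
      exact Nat.find_spec hex
    have h3 : ∀ σ : A.inertiaSubgroupIn ℚ, σ • ((x : AlgebraicClosure ℚ) / (ℓ : AlgebraicClosure ℚ) ^ n) =
        (x : AlgebraicClosure ℚ) / (ℓ : AlgebraicClosure ℚ) ^ n :=
      fun σ => hfixdiv _ _ σ (x.2.2 σ) (hfixℓ σ n)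
    have h4 : IsUnit (⟨_, h1, h3⟩ : inertiaRing A) := by
      by_contra h
      obtain ⟨s, hs, hxs⟩ := hU _ h3 (hnu _ h)
      apply h2
      have : (x : AlgebraicClosure ℚ) / (ℓ : AlgebraicClosure ℚ) ^ (n + 1) = s := by
        rw [pow_succ, ← div_div, hxs]
        field_simp
      rwa [this]
    obtain ⟨u, hu⟩ := h4
    refine ⟨n, u, Subtype.ext ?_⟩
    have h5 : ((u : inertiaRing A) : AlgebraicClosure ℚ) =
        (x : AlgebraicClosure ℚ) / (ℓ : AlgebraicClosure ℚ) ^ n := congrArg Subtype.val hu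
    rw [Subring.coe_mul, h5]
    push_cast
    field_simp

end place

end Fermat.Agent.FlatOrd.Unramified
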