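import Mathlib
import Fermat.Prelude.Def_GaloisRep_LocalConditions

/-!
# Gluing ordinary representations

If `T` is a local ring which embeds in a product of local rings `B i`, and the base change of
`ρ` to each `B i` is ordinary at `p`, and there is an element `σ` of inertia with
`det ρ(σ) - 1` a unit, then `ρ` is ordinary at `p`.
-/

set_option autoImplicit false

open scoped TensorProduct

namespace Fermat.Agent.FlatOrd.Glue

/-- For a free module `V` over `A`, an element of `V` vanishing in all `B i ⊗ V` is zero when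
`A → ∏ B i` is injective. -/
theorem eq_zero_of_forall_tmul_eq_zero {A : Type} [CommRing A] {V : Type} [AddCommGroup V]
    [Module A V] [Module.Free A V] {ι : Type} (B : ι → Type) [∀ i, CommRing (B i)]
    [∀ i, Algebra A (B i)] (hinj : ∀ a : A, (∀ i, algebraMap A (B i) a = 0) → a = 0)
    (v : V) (hv : ∀ i, ((1 : B i) ⊗ₜ[A] v : B i ⊗[A] V) = 0) : v = 0 := by
  let b := Module.Free.chooseBasis A V
  refine b.repr.injective ?_
  rw [map_zero]
  refine Finsupp.ext fun j => ?_
  refine hinj _ fun i => ?_
  have h1 := congrArg (fun x => (b.baseChange (B i)).repr x j) (hv i)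
  simpa [Module.Basis.baseChange_repr_tmul, Algebra.smul_def] using h1

/-- Linear algebra: in a rank two module with basis `b`, an endomorphism `f` stabilising the line
spanned by `b 0` and acting trivially on the quotient acts on the line by its determinant. -/
theorem apply_basis_zero {B : Type} [CommRing B] {W : Type} [AddCommGroup W] [Module B W]
    (b : Module.Basis (Fin 2) B W) (f : W →ₗ[B] W)
    (hL : ∀ v ∈ Submodule.span B {b 0}, f v ∈ Submodule.span B {b 0})
    (hq : ∀ v, f v - v ∈ Submodule.span B {b 0}) :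
    f (b 0) = LinearMap.det f • b 0 := by
  obtain ⟨c, hc⟩ := Submodule.mem_span_singleton.mp (hL (b 0) (Submodule.mem_span_singleton_self _))
  obtain ⟨z, hz⟩ := Submodule.mem_span_singleton.mp (hq (b 1))
  have h1 : f (b 1) = z • b 0 + b 1 := by rw [hz]; abel
  have hdet : LinearMap.det f = c := by
    rw [← LinearMap.det_toMatrix b, Matrix.det_fin_two]
    simp [LinearMap.toMatrix_apply, ← hc, h1]
  rw [hdet, hc]

/-- With the hypotheses of `apply_basis_zero` and `det f - 1` a unit, the line is exactly the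
kernel of `f - det f`. -/
theorem mem_line_iff {B : Type} [CommRing B] {W : Type} [AddCommGroup W] [Module B W]
    (b : Module.Basis (Fin 2) B W) (f : W →ₗ[B] W)
    (hL : ∀ v ∈ Submodule.span B {b 0}, f v ∈ Submodule.span B {b 0})
    (hq : ∀ v, f v - v ∈ Submodule.span B {b 0}) (hu : IsUnit (LinearMap.det f - 1)) (v : W) :
    v ∈ Submodule.span B {b 0} ↔ f v = LinearMap.det f • v := by
  constructor
  · intro hv
    obtain ⟨c, rfl⟩ := Submodule.mem_span_singleton.mp hv
    rw [map_smul, apply_basis_zero b f hL hq, smul_comm]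
  · intro hv
    have h1 := hq v
    rw [hv] at h1
    have h2 : (LinearMap.det f - 1) • v ∈ Submodule.span B {b 0} := by
      rwa [sub_smul, one_smul]
    obtain ⟨u, hu⟩ := hu
    have h3 := Submodule.smul_mem _ ((u⁻¹ : Bˣ) : B) h2
    rwa [← hu, smul_smul, Units.inv_mul, one_smul] at h3

/-- An endomorphism `f` of a free module of rank two over a local ring, satisfying
`(f - 1)(f - d) = 0`, `d = det f`, `d - 1` a unit, has the kernel of `f - d` a rank one direct
summand. -/
theorem exists_basis_of_split {A : Type} [CommRing A] [IsLocalRing A] {V : Type} [AddCommGroup V]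
    [Module A V] [Module.Free A V] [Module.Finite A V] (h2 : Module.finrank A V = 2)
    (f : V →ₗ[A] V) (hdu : IsUnit (LinearMap.det f)) (hu : IsUnit (LinearMap.det f - 1))
    (hf : ∀ v, f (f v - v) = LinearMap.det f • (f v - v)) :
    ∃ b : Module.Basis (Fin 2) A V,
      LinearMap.ker (f - LinearMap.det f • LinearMap.id) = Submodule.span A {b 0} := by
  set d := LinearMap.det f with hd
  obtain ⟨u, hu⟩ := hu
  set L := LinearMap.ker (f - d • LinearMap.id) with hL
  set M := LinearMap.ker (f - LinearMap.id) with hM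
  have memL : ∀ v, v ∈ L ↔ f v = d • v := fun v => by
    rw [hL, LinearMap.mem_ker, LinearMap.sub_apply, LinearMap.smul_apply, LinearMap.id_apply,
      sub_eq_zero]
  have memM : ∀ v, v ∈ M ↔ f v = v := fun v => by
    rw [hM, LinearMap.mem_ker, LinearMap.sub_apply, LinearMap.id_apply, sub_eq_zero]
  have hdisj : Disjoint L M := by
    rw [Submodule.disjoint_def]
    intro x hxL hxM
    rw [memL] at hxL
    rw [memM] at hxM
    have h3 : (d - 1) • x = 0 := by rw [sub_smul, one_smul, ← hxL, hxM, sub_self]
    have h4 := congrArg (fun y => ((u⁻¹ : Aˣ) : A) • y) h3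
    simpa [← hu, smul_smul] using h4
  have hcodisj : Codisjoint L M := by
    rw [codisjoint_iff, eq_top_iff]
    intro x _
    have h1 : f x - x ∈ L := by rw [memL]; exact hf x
    have h2 : f x - d • x ∈ M := by
      rw [memM]
      have := hf x
      rw [map_sub, smul_sub] at this
      rw [map_sub, map_smul]
      have h5 : f (f x) = d • f x - d • x + f x := by rw [← this]; abel
      rw [h5]; abel
    have h3 : x = ((u⁻¹ : Aˣ) : A) • ((f x - x) - (f x - d • x)) := by
      have h6 : (f x - x) - (f x - d • x) = (d - 1) • x := by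
        rw [sub_smul, one_smul]; abel
      rw [h6, ← hu, smul_smul, Units.inv_mul, one_smul]
    rw [h3]
    exact Submodule.smul_mem _ _ (Submodule.sub_mem _ (Submodule.mem_sup_left h1)
      (Submodule.mem_sup_right h2))
  have hcompl : IsCompl L M := ⟨hdisj, hcodisj⟩
  let e := Submodule.prodEquivOfIsCompl L M hcompl
  -- both are direct summands, hence free
  have : Module.Finite A (L × M) := Module.Finite.equiv e.symm
  have : Module.Free A (L × M) := Module.Free.of_equiv e.symm
  have : Module.Finite A L := Module.Finite.of_surjective (LinearMap.fst A L M) Prod.fst_surjective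
  have : Module.Finite A M := Module.Finite.of_surjective (LinearMap.snd A L M) Prod.snd_surjective
  have : Module.Projective A L := Module.Projective.of_split (LinearMap.inl A L M)
    (LinearMap.fst A L M) (LinearMap.fst_comp_inl _ _ _)
  have : Module.Projective A M := Module.Projective.of_split (LinearMap.inr A L M)
    (LinearMap.snd A L M) (LinearMap.snd_comp_inr _ _ _)
  have : Module.Free A L := Module.free_of_flat_of_isLocalRing
  have : Module.Free A M := Module.free_of_flat_of_isLocalRing
  have hrank : Module.finrank A L + Module.finrank A M = 2 := by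
    rw [← Module.finrank_prod, ← h2]
    exact e.finrank_eq
  have hL0 : Module.finrank A L ≠ 0 := by
    intro h0
    have hbot : L = ⊥ := by
      have : Subsingleton L := (Module.finrank_eq_zero_iff_of_free A L).mp h0
      exact (Submodule.eq_bot_of_subsingleton)
    have hfid : f = LinearMap.id := by
      refine LinearMap.ext fun x => ?_
      have : f x - x ∈ L := by rw [memL]; exact hf x
      rw [hbot, Submodule.mem_bot, sub_eq_zero] at this
      simpa using this
    rw [hd, hfid, LinearMap.det_id, sub_self] at hu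
    exact not_isUnit_zero (M₀ := A) (hu ▸ u.isUnit)
  have hM0 : Module.finrank A M ≠ 0 := by
    intro h0
    have hbot : M = ⊥ := by
      have : Subsingleton M := (Module.finrank_eq_zero_iff_of_free A M).mp h0
      exact (Submodule.eq_bot_of_subsingleton)
    have hfid : f = d • LinearMap.id := by
      refine LinearMap.ext fun x => ?_
      have h2 : f x - d • x ∈ M := by
        rw [memM]
        have := hf x
        rw [map_sub, smul_sub] at this
        rw [map_sub, map_smul]
        have h5 : f (f x) = d • f x - d • x + f x := by rw [← this]; abel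
        rw [h5]; abel
      rw [hbot, Submodule.mem_bot, sub_eq_zero] at h2
      simpa using h2
    have h7 : d = d ^ 2 := by
      conv_lhs => rw [hd, hfid, LinearMap.det_smul, LinearMap.det_id, mul_one, h2]
    have h10 : d = 1 := by
      have : d * (d - 1) = 0 := by linear_combination -h7
      exact sub_eq_zero.mp (hdu.mul_right_eq_zero.mp this)
    rw [h10, sub_self] at hu
    exact not_isUnit_zero (M₀ := A) (hu ▸ u.isUnit)
  have hL1 : Module.finrank A L = 1 := by omega
  have hM1 : Module.finrank A M = 1 := by omega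
  let bL := Module.finBasisOfFinrankEq A L hL1
  let bM := Module.finBasisOfFinrankEq A M hM1
  let b := ((bL.prod bM).map e).reindex finSumFinEquiv
  refine ⟨b, ?_⟩
  have hb0 : b 0 = (bL 0 : V) := by
    simp only [b, Module.Basis.reindex_apply, Module.Basis.map_apply]
    have : (finSumFinEquiv (m := 1) (n := 1)).symm 0 = Sum.inl 0 := by decide
    rw [this]
    simp [e]
  rw [hb0]
  apply le_antisymm
  · intro x hx
    rw [Submodule.mem_span_singleton]
    refine ⟨bL.repr ⟨x, hx⟩ 0, ?_⟩
    have := bL.sum_repr ⟨x, hx⟩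
    rw [Fin.sum_univ_one] at this
    simpa using congrArg Subtype.val this
  · rw [Submodule.span_singleton_le_iff_mem]
    exact (bL 0).2

/-- **Gluing ordinarity**: if a local ring `A` embeds in a product of local rings `B i`, the base
changes of `ρ` to the `B i` are all ordinary at `p`, and for each place over `p` there is an
element `σ` of inertia with `det ρ(σ) - 1` a unit, then `ρ` is ordinary at `p`. -/
theorem isOrdinaryAt_of_forall_baseChange {A : Type} [CommRing A] [IsLocalRing A]
    (ρ : GaloisRepAdic A) (p : ℕ) {ι : Type} (B : ι → Type) [∀ i, CommRing (B i)]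
    [∀ i, IsLocalRing (B i)] (φ : ∀ i, A →+* B i) (hφ : ∀ i, IsLocalHom (φ i))
    (hinj : ∀ a : A, (∀ i, φ i a = 0) → a = 0)
    (hord : ∀ i, (ρ.baseChangeAlong (φ i) (hφ i)).IsOrdinaryAt p)
    (hdet : ∀ P : ValuationSubring (AlgebraicClosure ℚ), P.LiesOverPrime p →
      ∃ σ ∈ P.inertiaSubgroupIn ℚ, IsUnit (LinearMap.det (ρ.ρ σ) - 1)) :
    ρ.IsOrdinaryAt p := by
  intro P hP
  obtain ⟨σ, hσ, hu⟩ := hdet P hP
  let _ : ∀ i, Algebra A (B i) := fun i => (φ i).toAlgebra
  have hinj' : ∀ a : A, (∀ i, algebraMap A (B i) a = 0) → a = 0 := hinj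
  choose L hLb hD hI using fun i => hord i P hP
  choose b hb using hLb
  have hσD : σ ∈ P.decompositionSubgroup ℚ := by
    obtain ⟨τ, -, rfl⟩ := hσ
    exact τ.2
  -- the action on `B i ⊗ V`
  have hact : ∀ i (τ : AlgebraicClosure ℚ ≃ₐ[ℚ] AlgebraicClosure ℚ) (v : ρ.V),
      (ρ.baseChangeAlong (φ i) (hφ i)).ρ τ ((1 : B i) ⊗ₜ[A] v) = (1 : B i) ⊗ₜ[A] (ρ.ρ τ v) :=
    fun i τ v => LinearMap.baseChange_tmul _ _ _
  have hdeti : ∀ i, LinearMap.det ((ρ.baseChangeAlong (φ i) (hφ i)).ρ σ) =
      φ i (LinearMap.det (ρ.ρ σ)) := fun i => LinearMap.det_baseChange _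
  set d := LinearMap.det (ρ.ρ σ) with hd
  have hui : ∀ i, IsUnit (LinearMap.det ((ρ.baseChangeAlong (φ i) (hφ i)).ρ σ) - 1) := fun i => by
    rw [hdeti, ← map_one (φ i), ← map_sub]
    exact hu.map (φ i)
  have hmem : ∀ i (w : (ρ.baseChangeAlong (φ i) (hφ i)).V), w ∈ L i ↔
      (ρ.baseChangeAlong (φ i) (hφ i)).ρ σ w = φ i d • w := fun i w => by
    have := mem_line_iff (b i) ((ρ.baseChangeAlong (φ i) (hφ i)).ρ σ)
      (by rw [← hb i]; exact hD i σ hσD) (by rw [← hb i]; exact hI i σ hσ) (hui i) w
    rwa [← hb i, hdeti i] at this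
  -- membership in the line can be tested in the `B i`
  have hmem2 : ∀ i (v : ρ.V), ((1 : B i) ⊗ₜ[A] v : B i ⊗[A] ρ.V) ∈ L i ↔
      ((1 : B i) ⊗ₜ[A] (ρ.ρ σ v - d • v) : B i ⊗[A] ρ.V) = 0 := fun i v => by
    have h1 := hmem i ((1 : B i) ⊗ₜ[A] v : B i ⊗[A] ρ.V)
    rw [hact] at h1
    refine h1.trans ?_
    have h2 : (φ i d • ((1 : B i) ⊗ₜ[A] v : B i ⊗[A] ρ.V)) = (1 : B i) ⊗ₜ[A] (d • v) := by
      rw [TensorProduct.tmul_smul, TensorProduct.smul_tmul', TensorProduct.smul_tmul',
        smul_eq_mul, Algebra.smul_def]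
      rfl
    rw [TensorProduct.tmul_sub, sub_eq_zero, ← h2]
    rfl
  have hall : ∀ v : ρ.V, (∀ i, ((1 : B i) ⊗ₜ[A] v : B i ⊗[A] ρ.V) ∈ L i) ↔ ρ.ρ σ v = d • v := by
    intro v
    constructor
    · intro h
      rw [← sub_eq_zero]
      exact eq_zero_of_forall_tmul_eq_zero B hinj' _ fun i => (hmem2 i v).mp (h i)
    · intro h i
      rw [hmem2, h, sub_self, TensorProduct.tmul_zero]
  have hsplit : ∀ v, ρ.ρ σ (ρ.ρ σ v - v) = d • (ρ.ρ σ v - v) := by
    intro v
    rw [← hall]
    intro i
    rw [TensorProduct.tmul_sub, ← hact]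
    exact hI i σ hσ _
  have hdu : IsUnit d := (ρ.det σ).isUnit
  obtain ⟨b0, hb0⟩ := exists_basis_of_split ρ.finrank_eq (ρ.ρ σ) hdu hu hsplit
  have hker : ∀ v, v ∈ LinearMap.ker (ρ.ρ σ - d • LinearMap.id) ↔ ρ.ρ σ v = d • v := fun v => by
    rw [LinearMap.mem_ker, LinearMap.sub_apply, LinearMap.smul_apply, LinearMap.id_apply,
      sub_eq_zero]
  refine ⟨LinearMap.ker (ρ.ρ σ - d • LinearMap.id), ⟨b0, hb0⟩, ?_, ?_⟩
  · intro τ hτ v hv
    rw [hker, ← hall] at hv ⊢
    intro i
    rw [← hact]
    exact hD i τ hτ _ (hv i)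
  · intro τ hτ v
    rw [hker, ← hall]
    intro i
    rw [TensorProduct.tmul_sub, ← hact]
    exact hI i τ hτ _

end Fermat.Agent.FlatOrd.Glue
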