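import Mathlib
import Fermat.Prelude.Def_GaloisRep_Flat
import Fermat.Agent.QbarInst
import Fermat.Agent.FrobExists
import Fermat.Agent.FlatOrd.InertiaLift
import Fermat.Agent.FlatOrd.Unramified
import Fermat.Agent.FlatOrd.Key

/-!
# Finite flat models of Galois modules over `ℤ_(p)`: kernel of reduction and inertia
-/

set_option autoImplicit false

open Pointwise TensorProduct
open Fermat.Agent.FrobExists

namespace Fermat.Agent.FlatOrd.Model

local notation "Qbar" => AlgebraicClosure ℚ
local notation "GQ" => (AlgebraicClosure ℚ ≃ₐ[ℚ] AlgebraicClosure ℚ)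

/-- The data of a commutative Hopf algebra `H`, finite over `ℤ_(p)`, whose `ℚ̄`-points are
identified, additively and Galois equivariantly, with the finite Galois module `M`. -/
structure FlatModel (p : ℕ) (M : Type) [AddCommGroup M] (act : GQ →* AddMonoid.End M) : Type 1 where
  H : Type
  [instRing : CommRing H]
  [instHopf : HopfAlgebra (GaloisRep.ratLocalizedAt p) H]
  [instFinite : Module.Finite (GaloisRep.ratLocalizedAt p) H]
  e : WithConv (H →ₐ[GaloisRep.ratLocalizedAt p] Qbar) ≃ M
  map_mul : ∀ f g : WithConv (H →ₐ[GaloisRep.ratLocalizedAt p] Qbar), e (f * g) = e f + e g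
  map_gal : ∀ (σ : GQ) (f g : WithConv (H →ₐ[GaloisRep.ratLocalizedAt p] Qbar)),
    (∀ h : H, g h = σ (f h)) → e g = act σ (e f)

attribute [instance] FlatModel.instRing FlatModel.instHopf FlatModel.instFinite

variable {p : ℕ} {M : Type} [AddCommGroup M] {act : GQ →* AddMonoid.End M}

namespace FlatModel

variable (F : FlatModel p M act)

/-- The point of `H` corresponding to `x`. -/
noncomputable def pt (x : M) : F.H →ₐ[GaloisRep.ratLocalizedAt p] Qbar := (F.e.symm x).ofConv

theorem toConv_pt (x : M) : WithConv.toConv (F.pt x) = F.e.symm x := rfl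

theorem pt_injective : Function.Injective F.pt := fun x y h => by
  have h1 : F.e.symm x = F.e.symm y := by
    rw [← toConv_pt, h, toConv_pt]
  exact F.e.symm.injective h1

theorem pt_add (x y : M) (h : F.H) :
    F.pt (x + y) h = Algebra.TensorProduct.lift (F.pt x) (F.pt y) (fun _ _ ↦ .all ..)
      (Coalgebra.comul (R := GaloisRep.ratLocalizedAt p) h) := by
  have h1 : F.e.symm (x + y) = F.e.symm x * F.e.symm y := by
    apply F.e.injective
    rw [F.map_mul, Equiv.apply_symm_apply, Equiv.apply_symm_apply, Equiv.apply_symm_apply]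
  show (F.e.symm (x + y)) h = _
  rw [h1, AlgHom.convMul_apply]
  rfl

theorem e_one : F.e 1 = 0 := by
  have h := F.map_mul 1 1
  rw [mul_one] at h
  exact left_eq_add.mp h

theorem pt_zero (h : F.H) : F.pt 0 h =
    algebraMap (GaloisRep.ratLocalizedAt p) Qbar (Coalgebra.counit h) := by
  have h1 : F.e.symm 0 = 1 := by rw [← F.e_one, Equiv.symm_apply_apply]
  show (F.e.symm 0) h = _
  rw [h1, AlgHom.convOne_apply]

theorem algebraMap_eq (r : GaloisRep.ratLocalizedAt p) :
    algebraMap (GaloisRep.ratLocalizedAt p) Qbar r = ((r : ℚ) : Qbar) :=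
  eq_ratCast (algebraMap ℚ Qbar) (r : ℚ)

theorem pt_act (σ : GQ) (x : M) (h : F.H) : F.pt (act σ x) h = σ (F.pt x h) := by
  let g : F.H →ₐ[GaloisRep.ratLocalizedAt p] Qbar :=
    { (σ : Qbar →+* Qbar).comp (F.pt x : F.H →+* Qbar) with
      commutes' := fun r => by
        show σ (F.pt x (algebraMap _ _ r)) = _
        rw [AlgHom.commutes, algebraMap_eq, map_ratCast] }
  have h1 := F.map_gal σ (WithConv.toConv (F.pt x)) (WithConv.toConv g) (fun h => rfl)
  rw [toConv_pt, Equiv.apply_symm_apply] at h1
  rw [← h1]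
  show (F.e.symm (F.e (WithConv.toConv g))) h = _
  rw [Equiv.symm_apply_apply]
  rfl

end FlatModel

/-- `ℤ_(p)` is contained in every place over `p`. -/
theorem ratCast_mem (P : ValuationSubring Qbar) (hP : P.LiesOverPrime p)
    (r : GaloisRep.ratLocalizedAt p) : ((r : ℚ) : Qbar) ∈ P := by
  have hcop : (r : ℚ).den.Coprime p := r.2
  have hden : (((r : ℚ).den : ℕ) : Qbar) ∉ P.nonunits := by
    intro h
    have h1 : IsCoprime (((r : ℚ).den : ℕ) : ℤ) (p : ℤ) := Nat.isCoprime_iff_coprime.mpr hcop
    obtain ⟨a, b, hab⟩ := h1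
    have h2 : (1 : Qbar) ∈ P.nonunits := by
      have h3 : (1 : Qbar) = a * ((r : ℚ).den : ℕ) + b * p := by exact_mod_cast hab.symm
      rw [h3]
      have h4 := mul_mem_nonunits P (intCast_mem P a) h
      have h5 := mul_mem_nonunits P (intCast_mem P b) hP
      rw [ValuationSubring.mem_nonunits_iff] at h4 h5 ⊢
      exact lt_of_le_of_lt (P.valuation.map_add _ _) (max_lt h4 h5)
    rw [ValuationSubring.mem_nonunits_iff, map_one] at h2
    exact lt_irrefl _ h2
  rw [ValuationSubring.mem_nonunits_iff_or] at hden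
  push Not at hden
  rw [← Rat.num_div_den (r : ℚ)]
  push_cast
  rw [div_eq_mul_inv]
  exact P.mul_mem _ _ (intCast_mem P _) hden.2

/-- An element of `ℚ̄` integral over `ℤ_(p)` lies in every place over `p`. -/
theorem mem_of_isIntegral_ratLocalizedAt (P : ValuationSubring Qbar) (hP : P.LiesOverPrime p)
    {y : Qbar} (hy : IsIntegral (GaloisRep.ratLocalizedAt p) y) : y ∈ P := by
  let φ : GaloisRep.ratLocalizedAt p →+* P :=
    (algebraMap (GaloisRep.ratLocalizedAt p) Qbar).codRestrict P.toSubring
      (fun r => by rw [FlatModel.algebraMap_eq]; exact ratCast_mem P hP r)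
  have h1 : (algebraMap P Qbar).comp φ = algebraMap (GaloisRep.ratLocalizedAt p) Qbar := rfl
  have h2 : ((algebraMap P Qbar).comp φ).IsIntegralElem y := hy
  have h3 : IsIntegral P y := h2.of_comp
  obtain ⟨z, rfl⟩ := IsIntegrallyClosed.isIntegral_iff.mp h3
  exact z.2

namespace FlatModel

variable (F : FlatModel p M act)

theorem pt_mem (P : ValuationSubring Qbar) (hP : P.LiesOverPrime p) (x : M) (h : F.H) :
    F.pt x h ∈ P :=
  mem_of_isIntegral_ratLocalizedAt P hP
    ((Algebra.IsIntegral.isIntegral (R := GaloisRep.ratLocalizedAt p) h).map (F.pt x))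

theorem nonunits_add {P : ValuationSubring Qbar} {a b : Qbar} (ha : a ∈ P.nonunits)
    (hb : b ∈ P.nonunits) : a + b ∈ P.nonunits := by
  rw [ValuationSubring.mem_nonunits_iff] at ha hb ⊢
  exact lt_of_le_of_lt (P.valuation.map_add _ _) (max_lt ha hb)

theorem nonunits_neg {P : ValuationSubring Qbar} {a : Qbar} (ha : a ∈ P.nonunits) :
    -a ∈ P.nonunits := by
  rw [ValuationSubring.mem_nonunits_iff] at ha ⊢
  rwa [Valuation.map_neg]

theorem nonunits_zero {P : ValuationSubring Qbar} : (0 : Qbar) ∈ P.nonunits := by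
  simp

/-- Congruence modulo `P` of points is compatible with addition. -/
theorem congr_add (P : ValuationSubring Qbar) (hP : P.LiesOverPrime p) {x x' y y' : M}
    (hx : ∀ h, F.pt x h - F.pt x' h ∈ P.nonunits) (hy : ∀ h, F.pt y h - F.pt y' h ∈ P.nonunits)
    (h : F.H) : F.pt (x + y) h - F.pt (x' + y') h ∈ P.nonunits := by
  rw [pt_add, pt_add]
  generalize Coalgebra.comul (R := GaloisRep.ratLocalizedAt p) h = t
  induction t using TensorProduct.induction_on with
  | zero => rw [map_zero, map_zero, sub_zero]; exact nonunits_zero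
  | tmul a b =>
    rw [Algebra.TensorProduct.lift_tmul, Algebra.TensorProduct.lift_tmul]
    have h1 : F.pt x a * F.pt y b - F.pt x' a * F.pt y' b =
        F.pt y b * (F.pt x a - F.pt x' a) + F.pt x' a * (F.pt y b - F.pt y' b) := by ring
    rw [h1]
    exact nonunits_add (mul_mem_nonunits P (F.pt_mem P hP y b) (hx a))
      (mul_mem_nonunits P (F.pt_mem P hP x' a) (hy b))
  | add a b ha hb =>
    rw [map_add, map_add, add_sub_add_comm]
    exact nonunits_add ha hb

/-- The kernel of reduction: points congruent to the origin modulo the place `P`. -/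
def kerRed (P : ValuationSubring Qbar) (hP : P.LiesOverPrime p) : AddSubgroup M where
  carrier := {x | ∀ h, F.pt x h - F.pt 0 h ∈ P.nonunits}
  zero_mem' := fun h => by rw [sub_self]; exact nonunits_zero
  add_mem' := fun {x y} hx hy h => by
    have := F.congr_add P hP hx hy h
    rwa [add_zero] at this
  neg_mem' := fun {x} hx h => by
    have h1 := F.congr_add P hP (x := -x) (x' := -x) (y := x) (y' := 0)
      (fun h => by rw [sub_self]; exact nonunits_zero) hx h
    rw [neg_add_cancel, add_zero] at h1
    rw [← neg_sub]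
    exact nonunits_neg h1

theorem mem_kerRed (P : ValuationSubring Qbar) (hP : P.LiesOverPrime p) (x : M) :
    x ∈ F.kerRed P hP ↔ ∀ h, F.pt x h - F.pt 0 h ∈ P.nonunits := Iff.rfl

/-- The kernel of reduction is stable under the decomposition group. -/
theorem act_mem_kerRed (P : ValuationSubring Qbar) (hP : P.LiesOverPrime p) {x : M}
    (hx : x ∈ F.kerRed P hP) {σ : GQ} (hσ : σ ∈ P.decompositionSubgroup ℚ) :
    act σ x ∈ F.kerRed P hP := by
  intro h
  have h0 : F.pt 0 h = σ (F.pt 0 h) := by
    conv_lhs => rw [← map_zero (act σ), F.pt_act]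
  rw [h0, F.pt_act, ← map_sub]
  have h1 : (F.pt x h - F.pt 0 h) ∈ P.nonunits := hx h
  have h2 : σ • P = P := hσ
  rw [ValuationSubring.mem_nonunits_iff_or] at h1 ⊢
  rcases h1 with h1 | h1
  · left; rw [h1, map_zero]
  · right
    intro h3
    apply h1
    rw [← h2, ValuationSubring.mem_smul_pointwise_iff_exists] at h3
    obtain ⟨y, hy, hy'⟩ := h3
    have h4 : y = (F.pt x h - F.pt 0 h)⁻¹ := by
      apply σ.injective
      rw [map_inv₀]
      exact hy'
    rwa [← h4]

/-- Inertia acts trivially modulo the kernel of reduction. -/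
theorem act_sub_mem_kerRed (P : ValuationSubring Qbar) (hP : P.LiesOverPrime p) (x : M) {σ : GQ}
    (hσ : σ ∈ P.inertiaSubgroupIn ℚ) : act σ x - x ∈ F.kerRed P hP := by
  intro h
  have h1 := F.congr_add P hP (x := act σ x) (x' := x) (y := -x) (y' := -x)
    (fun h => by
      rw [F.pt_act]
      exact InertiaLift.sub_mem_nonunits_of_mem_inertia P hσ (F.pt_mem P hP x h))
    (fun h => by rw [sub_self]; exact nonunits_zero) h
  rwa [← sub_eq_add_neg, ← sub_eq_add_neg, sub_self] at h1

/-- **No trivial inertia constituent in the kernel of reduction** (`p` odd). -/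
theorem le_of_inertia_trivial [Finite M] (hp : p.Prime) (hp2 : p ≠ 2) (P : ValuationSubring Qbar)
    (hP : P.LiesOverPrime p) (N N' : AddSubgroup M) (hN : N ≤ F.kerRed P hP)
    (hNst : ∀ σ ∈ P.inertiaSubgroupIn ℚ, ∀ x ∈ N, act σ x ∈ N)
    (hNN' : ∀ σ ∈ P.inertiaSubgroupIn ℚ, ∀ x ∈ N, act σ x - x ∈ N')
    (hpow : ∀ x ∈ N, ∃ k : ℕ, p ^ k • x = 0) : N ≤ N' := by
  let I := P.inertiaSubgroupIn ℚ
  let S := Unramified.inertiaRing P
  have hDVR : IsDiscreteValuationRing S := Unramified.inertiaRing_isDiscreteValuationRing P hp hP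
  let _ : DistribMulAction I N :=
    { smul := fun σ x => ⟨act σ x, hNst σ σ.2 x x.2⟩
      one_smul := fun x => Subtype.ext (by
        show act ((1 : I) : GQ) (x : M) = x
        rw [OneMemClass.coe_one, map_one]; rfl)
      mul_smul := fun σ τ x => Subtype.ext (by
        show act ((σ * τ : I) : GQ) (x : M) = act σ (act τ x)
        rw [MulMemClass.coe_mul, _root_.map_mul]; rfl)
      smul_zero := fun σ => Subtype.ext (map_zero (act σ))
      smul_add := fun σ x y => Subtype.ext (map_add (act σ) (x : M) y) }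
  have hsmul : ∀ (σ : I) (x : N), ((σ • x : N) : M) = act σ x := fun σ x => rfl
  let A : Submodule S (N → Qbar) :=
    Submodule.span S (Set.range fun h : F.H => fun x : N => F.pt x h)
  have hS : ∀ t : Qbar, t ∈ S ↔ t ∈ P ∧ ∀ τ : I, τ • t = t := fun t => Iff.rfl
  have hU : ∀ t : Qbar, (∀ τ : I, τ • t = t) → t ∈ P.nonunits → ∃ s ∈ P, t = p * s :=
    fun t ht htm => Unramified.exists_eq_mul_of_fixed P hp hP t (fun σ hσ => ht ⟨σ, hσ⟩) htm
  have hfg : A.FG := by
    obtain ⟨T, hT⟩ := Module.finite_def.mp F.instFinite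
    have hgen : A = Submodule.span S ((fun h : F.H => fun x : N => F.pt x h) '' (T : Set F.H)) := by
      refine le_antisymm (Submodule.span_le.mpr ?_) (Submodule.span_mono (Set.image_subset_range _ _))
      rintro _ ⟨h, rfl⟩
      have hh : h ∈ Submodule.span (GaloisRep.ratLocalizedAt p) (T : Set F.H) := hT ▸ Submodule.mem_top
      show (fun x : N => F.pt x h) ∈ Submodule.span S _
      induction hh using Submodule.span_induction with
      | mem h hh => exact Submodule.subset_span ⟨h, hh, rfl⟩
      | zero =>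
        simp only [map_zero]
        exact Submodule.zero_mem _
      | add a b _ _ ha hb =>
        simp only [map_add]
        exact Submodule.add_mem _ ha hb
      | smul r h _ ih =>
        have hrS : ((r : ℚ) : Qbar) ∈ S := ⟨ratCast_mem P hP r, fun σ => by
          show (σ : GQ) ((r : ℚ) : Qbar) = _
          rw [map_ratCast]⟩
        have h1 : (fun x : N => F.pt x (r • h)) = (⟨_, hrS⟩ : S) • fun x : N => F.pt x h := by
          funext x
          rw [map_smul, Algebra.smul_def, algebraMap_eq]
          rfl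
        rw [h1]
        exact Submodule.smul_mem _ _ ih
    rw [hgen]
    exact Submodule.fg_span (T.finite_toSet.image _)
  have hAeq : ∀ a ∈ A, ∀ (τ : I) x, a (τ • x) = τ • a x := by
    intro a ha τ
    induction ha using Submodule.span_induction with
    | mem a ha =>
      obtain ⟨h, rfl⟩ := ha
      intro x
      exact F.pt_act τ x h
    | zero => intro x; exact (smul_zero τ).symm
    | add a b _ _ ha hb =>
      intro x
      rw [Pi.add_apply, Pi.add_apply, ha, hb, smul_add]
    | smul s a _ ha =>
      intro x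
      rw [Pi.smul_apply, Pi.smul_apply, ha]
      show (s : Qbar) * (τ • a x) = τ • ((s : Qbar) * a x)
      rw [smul_mul', s.2.2]
  have hAred : ∀ a ∈ A, ∀ x, a x - a 0 ∈ P.nonunits := by
    intro a ha
    induction ha using Submodule.span_induction with
    | mem a ha =>
      obtain ⟨h, rfl⟩ := ha
      intro x
      exact hN x.2 h
    | zero => intro x; rw [Pi.zero_apply, Pi.zero_apply, sub_zero]; exact nonunits_zero
    | add a b _ _ ha hb =>
      intro x
      rw [Pi.add_apply, Pi.add_apply, add_sub_add_comm]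
      exact nonunits_add (ha x) (hb x)
    | smul s a _ ha =>
      intro x
      have h1 : (s • a) x - (s • a) 0 = (s : Qbar) * (a x - a 0) := by
        rw [mul_sub]; rfl
      rw [h1]
      exact mul_mem_nonunits P s.2.1 (ha x)
  have hAspan : Submodule.span Qbar (A : Set (N → Qbar)) = ⊤ := by
    classical
    have : Fintype N := Fintype.ofFinite N
    by_contra hne
    obtain ⟨lam, hlam, hle⟩ := Submodule.exists_le_ker_of_lt_top _ (lt_top_iff_ne_top.mpr hne)
    apply hlam
    have hexp : ∀ g : N → Qbar, lam g = ∑ x, lam (Pi.single x 1) * g x := by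
      intro g
      conv_lhs => rw [← Finset.univ_sum_single g, map_sum]
      refine Finset.sum_congr rfl fun x _ => ?_
      rw [mul_comm, ← smul_eq_mul, ← map_smul, ← Pi.single_smul, smul_eq_mul, mul_one]
    have hli := linearIndependent_monoidHom F.H Qbar
    have hinj : Function.Injective (fun x : N => ((F.pt x : F.H →+* Qbar) : F.H →* Qbar)) := by
      intro x y hxy
      apply Subtype.ext
      apply F.pt_injective
      ext h
      exact DFunLike.congr_fun hxy h
    have hli' := hli.comp _ hinj
    rw [Fintype.linearIndependent_iff] at hli'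
    have h0 := hli' (fun x => lam (Pi.single x 1)) (by
      funext h
      have h1 : (fun x : N => F.pt x h) ∈ LinearMap.ker lam :=
        hle (Submodule.subset_span (Submodule.subset_span ⟨h, rfl⟩))
      rw [LinearMap.mem_ker, hexp] at h1
      rw [Finset.sum_apply]
      exact h1)
    refine LinearMap.ext fun g => ?_
    rw [hexp, LinearMap.zero_apply]
    exact Finset.sum_eq_zero fun x _ => by rw [h0 x, zero_mul]
  have hAmul : ∀ a ∈ A, (fun x y => a (x + y)) ∈ Submodule.span S
      {g : N → N → Qbar | ∃ b ∈ A, ∃ c ∈ A, g = fun x y => b x * c y} := by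
    intro a ha
    induction ha using Submodule.span_induction with
    | mem a ha =>
      obtain ⟨h, rfl⟩ := ha
      have h1 : (fun x y : N => F.pt ((x + y : N) : M) h) = fun x y : N =>
          Algebra.TensorProduct.lift (F.pt x) (F.pt y) (fun _ _ ↦ .all ..)
          (Coalgebra.comul (R := GaloisRep.ratLocalizedAt p) h) := by
        funext x y
        exact F.pt_add x y h
      show (fun x y : N => F.pt ((x + y : N) : M) h) ∈ _
      rw [h1]
      generalize Coalgebra.comul (R := GaloisRep.ratLocalizedAt p) h = t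
      induction t using TensorProduct.induction_on with
      | zero =>
        simp only [map_zero]
        exact Submodule.zero_mem _
      | tmul a b =>
        simp only [Algebra.TensorProduct.lift_tmul]
        exact Submodule.subset_span ⟨_, Submodule.subset_span ⟨a, rfl⟩, _,
          Submodule.subset_span ⟨b, rfl⟩, rfl⟩
      | add a b ha hb =>
        simp only [map_add]
        exact Submodule.add_mem _ ha hb
    | zero => exact Submodule.zero_mem _
    | add a b _ _ ha hb => exact Submodule.add_mem _ ha hb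
    | smul s a _ ha => exact Submodule.smul_mem _ s ha
  intro x hx
  by_contra hxN'
  let Q := Multiplicative (N ⧸ (N'.addSubgroupOf N))
  let a : Q := Multiplicative.ofAdd (QuotientAddGroup.mk (⟨x, hx⟩ : N))
  have ha : a ≠ 1 := by
    intro h
    have h1 : (QuotientAddGroup.mk (⟨x, hx⟩ : N) : N ⧸ (N'.addSubgroupOf N)) = 0 := h
    rw [QuotientAddGroup.eq_zero_iff] at h1
    exact hxN' h1
  have : NeZero ((Monoid.exponent Q : ℕ) : Qbar) := ⟨by
    have := Monoid.exponent_ne_zero_of_finite (G := Q)
    exact_mod_cast this⟩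
  obtain ⟨φ, hφ⟩ := CommGroup.exists_apply_ne_one_of_hasEnoughRootsOfUnity Q Qbar ha
  let u : N → Qbar := fun y =>
    (φ (Multiplicative.ofAdd (QuotientAddGroup.mk y : N ⧸ (N'.addSubgroupOf N))) : Qbarˣ)
  have hu0 : u 0 = 1 := by
    show ((φ (Multiplicative.ofAdd (QuotientAddGroup.mk (0 : N) : N ⧸ (N'.addSubgroupOf N))) :
      Qbarˣ) : Qbar) = 1
    rw [QuotientAddGroup.mk_zero, ofAdd_zero, map_one, Units.val_one]
  have hu : ∀ x y, u (x + y) = u x * u y := by
    intro x y
    show ((φ (Multiplicative.ofAdd (QuotientAddGroup.mk (x + y) : N ⧸ (N'.addSubgroupOf N))) :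
      Qbarˣ) : Qbar) = _
    rw [QuotientAddGroup.mk_add, ofAdd_add, _root_.map_mul, Units.val_mul]
  have huN : ∀ n ∈ N'.addSubgroupOf N, u n = 1 := by
    intro n hn
    show ((φ (Multiplicative.ofAdd (QuotientAddGroup.mk n : N ⧸ (N'.addSubgroupOf N))) :
      Qbarˣ) : Qbar) = 1
    rw [(QuotientAddGroup.eq_zero_iff n).mpr hn, ofAdd_zero, map_one, Units.val_one]
  have hkey := Key.key P S hS p hU A hfg hAeq hAred hAspan hAmul (N'.addSubgroupOf N)
    (fun τ x => hNN' τ τ.2 x x.2) u hu0 hu huN ⟨x, hx⟩
  obtain ⟨k, hk⟩ := hpow x hx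
  have huk : ∀ (n : ℕ) (y : N), u (n • y) = u y ^ n := by
    intro n y
    induction n with
    | zero => rw [zero_smul, pow_zero, hu0]
    | succ n ih => rw [succ_nsmul, hu, ih, pow_succ]
  have h1 : u ⟨x, hx⟩ ^ p ^ k = 1 := by
    rw [← huk]
    have : p ^ k • (⟨x, hx⟩ : N) = 0 := Subtype.ext hk
    rw [this, hu0]
  have h2 := Key.root_eq_one' P hp hp2 hP k hkey h1
  exact hφ (Units.ext h2)

end FlatModel

end Fermat.Agent.FlatOrd.Model
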