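import Mathlib
import Fermat.Prelude.Def_GaloisRep_Flat
import Fermat.Agent.QbarInst
import Fermat.Agent.FlatOrd.InertiaLift
import Fermat.Agent.FlatOrd.Unramified
import Fermat.Agent.FlatOrd.Key
import Fermat.Agent.FlatOrd.Model
import Fermat.Agent.FlatOrd.Glue

/-!
# Flat and residually ordinary implies ordinary
-/

set_option autoImplicit false

open Pointwise TensorProduct
open Fermat.Agent.FrobExists

namespace Fermat.Agent.FlatOrd.Main

local notation "Qbar" => AlgebraicClosure ℚ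
local notation "GQ" => (AlgebraicClosure ℚ ≃ₐ[ℚ] AlgebraicClosure ℚ)

/-- In a finite situation, an endomorphism injective modulo `K` on `W` is surjective modulo `K`. -/
theorem surj_mod {V : Type} [AddCommGroup V] (K W : AddSubgroup V) [Finite (V ⧸ K)]
    (g : V →+ V) (hgW : ∀ v ∈ W, g v ∈ W) (hgK : ∀ v ∈ K, g v ∈ K)
    (hinj : ∀ v ∈ W, g v ∈ K → v ∈ K) (w : V) (hw : w ∈ W) : ∃ w' ∈ W, w - g w' ∈ K := by
  let gbar : V ⧸ K →+ V ⧸ K := QuotientAddGroup.map K K g hgK
  let Wbar : AddSubgroup (V ⧸ K) := W.map (QuotientAddGroup.mk' K)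
  let φ : Wbar → Wbar := fun x => ⟨gbar x, by
    obtain ⟨v, hv, hvx⟩ := x.2
    refine ⟨g v, hgW v hv, ?_⟩
    rw [← hvx]
    rfl⟩
  have hφ : Function.Injective φ := by
    intro x y hxy
    obtain ⟨x, v, hv, rfl⟩ := x
    obtain ⟨y, v', hv', rfl⟩ := y
    have h1 : (QuotientAddGroup.mk (g v) : V ⧸ K) = QuotientAddGroup.mk (g v') :=
      congrArg Subtype.val hxy
    rw [QuotientAddGroup.eq] at h1
    have h2 : -v + v' ∈ K := by
      apply hinj _ (W.add_mem (W.neg_mem hv) hv')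
      rwa [map_add, map_neg]
    apply Subtype.ext
    exact QuotientAddGroup.eq.mpr h2
  have hsurj : Function.Surjective φ := Finite.injective_iff_surjective.mp hφ
  obtain ⟨⟨x, w', hw', rfl⟩, hx⟩ := hsurj ⟨QuotientAddGroup.mk w, w, hw, rfl⟩
  have h1 : (QuotientAddGroup.mk (g w') : V ⧸ K) = QuotientAddGroup.mk w := congrArg Subtype.val hx
  rw [QuotientAddGroup.eq] at h1
  refine ⟨w', hw', ?_⟩
  rwa [sub_eq_add_neg, add_comm]

section

variable {T : Type} [CommRing T] [IsLocalRing T] (ρ : GaloisRepAdic T)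

theorem levelAction_mk (I : Ideal T) (σ : GQ) (v : ρ.V) :
    ρ.levelAction I σ (Submodule.Quotient.mk v) = Submodule.Quotient.mk (ρ.ρ σ v) := rfl

/-- The action on `V / I V` as a monoid hom. -/
noncomputable def levelAct (I : Ideal T) : GQ →* AddMonoid.End (ρ.V ⧸ (I • (⊤ : Submodule T ρ.V))) where
  toFun σ := (ρ.levelAction I σ).toAddMonoidHom
  map_one' := by
    ext x
    obtain ⟨v, rfl⟩ := Submodule.Quotient.mk_surjective _ x
    show ρ.levelAction I 1 (Submodule.Quotient.mk v) = _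
    rw [levelAction_mk, map_one]
    rfl
  map_mul' σ τ := by
    ext x
    obtain ⟨v, rfl⟩ := Submodule.Quotient.mk_surjective _ x
    show ρ.levelAction I (σ * τ) (Submodule.Quotient.mk v) = _
    rw [levelAction_mk, map_mul]
    rfl

theorem finite_level [IsNoetherianRing T] [Finite (IsLocalRing.ResidueField T)] (n : ℕ) :
    Finite (T ⧸ (IsLocalRing.maximalIdeal T ^ n)) := by
  have : Finite (T ⧸ IsLocalRing.maximalIdeal T) := ‹Finite (IsLocalRing.ResidueField T)›
  exact Ideal.finite_quotient_pow (IsNoetherian.noetherian _) n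

theorem finite_levelModule (I : Ideal T) [Finite (T ⧸ I)] :
    Finite (ρ.V ⧸ (I • (⊤ : Submodule T ρ.V))) := by
  have : Module.Finite (T ⧸ I) (ρ.V ⧸ (I • (⊤ : Submodule T ρ.V))) :=
    Module.Finite.of_restrictScalars_finite T _ _
  exact Module.finite_of_finite (T ⧸ I)

theorem lin_mem (I : Ideal T) (g : ρ.V →ₗ[T] ρ.V) {v : ρ.V}
    (hv : v ∈ I • (⊤ : Submodule T ρ.V)) : g v ∈ I • (⊤ : Submodule T ρ.V) := by
  have h1 : g v ∈ (I • (⊤ : Submodule T ρ.V)).map g := ⟨v, hv, rfl⟩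
  rw [Submodule.map_smul''] at h1
  exact Submodule.smul_mono le_rfl le_top h1

/-- The flat model at level `n`, translated to `V`. -/
theorem exists_kernel [IsNoetherianRing T] {p : ℕ} (hp : p.Prime) (hp2 : p ≠ 2)
    (hpT : (p : T) ∈ IsLocalRing.maximalIdeal T) (hflat : ρ.IsFlatAt p)
    (P : ValuationSubring Qbar) (hP : P.LiesOverPrime p) (n : ℕ) :
    ∃ W : AddSubgroup ρ.V,
      (∀ v ∈ IsLocalRing.maximalIdeal T ^ n • (⊤ : Submodule T ρ.V), v ∈ W) ∧
      (∀ τ ∈ P.decompositionSubgroup ℚ, ∀ v ∈ W, ρ.ρ τ v ∈ W) ∧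
      (∀ τ ∈ P.inertiaSubgroupIn ℚ, ∀ v, ρ.ρ τ v - v ∈ W) ∧
      (∀ N N' : AddSubgroup ρ.V, N ≤ W →
        (∀ v ∈ IsLocalRing.maximalIdeal T ^ n • (⊤ : Submodule T ρ.V), v ∈ N') →
        (∀ τ ∈ P.inertiaSubgroupIn ℚ, ∀ v ∈ N, ρ.ρ τ v ∈ N) →
        (∀ τ ∈ P.inertiaSubgroupIn ℚ, ∀ v ∈ N, ρ.ρ τ v - v ∈ N') → N ≤ N') := by
  set I := IsLocalRing.maximalIdeal T ^ n with hI
  have hres : Finite (IsLocalRing.ResidueField T) := hflat.1
  have hfin : Finite (T ⧸ I) := finite_level n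
  have hfinM : Finite (ρ.V ⧸ (I • (⊤ : Submodule T ρ.V))) := finite_levelModule ρ I
  obtain ⟨H, i1, i2, i3, -, -, e, he, hg⟩ := hflat.2 I hfin
  let F : Model.FlatModel p (ρ.V ⧸ (I • (⊤ : Submodule T ρ.V))) (levelAct ρ I) :=
    { H := H
      instRing := i1
      instHopf := i2
      instFinite := i3
      e := e
      map_mul := he
      map_gal := hg }
  let q : ρ.V →+ (ρ.V ⧸ (I • (⊤ : Submodule T ρ.V))) := (Submodule.mkQ _).toAddMonoidHom
  have hq : ∀ v, q v = Submodule.Quotient.mk v := fun v => rfl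
  have hqact : ∀ τ v, q (ρ.ρ τ v) = levelAct ρ I τ (q v) := fun τ v => rfl
  have hq0 : ∀ v, q v = 0 ↔ v ∈ I • (⊤ : Submodule T ρ.V) := fun v => by
    rw [hq]; exact Submodule.Quotient.mk_eq_zero _
  refine ⟨(F.kerRed P hP).comap q, ?_, ?_, ?_, ?_⟩
  · intro v hv
    rw [AddSubgroup.mem_comap, (hq0 v).mpr hv]
    exact AddSubgroup.zero_mem _
  · intro τ hτ v hv
    rw [AddSubgroup.mem_comap, hqact]
    exact F.act_mem_kerRed P hP hv hτ
  · intro τ hτ v
    rw [AddSubgroup.mem_comap, map_sub, hqact]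
    exact F.act_sub_mem_kerRed P hP (q v) hτ
  · intro N N' hNW hN' hNst hNN'
    have h1 := F.le_of_inertia_trivial hp hp2 P hP (N.map q) (N'.map q)
      (by
        rintro _ ⟨v, hv, rfl⟩
        exact hNW hv)
      (by
        rintro σ hσ _ ⟨v, hv, rfl⟩
        exact ⟨ρ.ρ σ v, hNst σ hσ v hv, hqact σ v⟩)
      (by
        rintro σ hσ _ ⟨v, hv, rfl⟩
        refine ⟨ρ.ρ σ v - v, hNN' σ hσ v hv, ?_⟩
        rw [map_sub, hqact])
      (by
        rintro _ ⟨v, hv, rfl⟩
        refine ⟨n, ?_⟩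
        rw [← map_nsmul, hq0, ← Nat.cast_smul_eq_nsmul T]
        refine Submodule.smul_mem_smul ?_ Submodule.mem_top
        rw [hI, Nat.cast_pow]
        exact Ideal.pow_mem_pow hpT n)
    intro v hv
    obtain ⟨v', hv', hvv'⟩ := h1 ⟨v, hv, rfl⟩
    have h2 : v - v' ∈ N' := hN' _ (by rw [← hq0, map_sub, hvv', sub_self])
    have := N'.add_mem h2 hv'
    rwa [sub_add_cancel] at this

/-- Cayley–Hamilton in rank two. -/
theorem cayley_hamilton {V : Type} [AddCommGroup V] [Module T V] [Module.Free T V]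
    [Module.Finite T V] (h2 : Module.finrank T V = 2) (f : V →ₗ[T] V) (v : V) :
    f (f v) = LinearMap.trace T V f • f v - LinearMap.det f • v := by
  let b := Module.finBasisOfFinrankEq T V h2
  have h1 : f.charpoly = Polynomial.X ^ 2 - Polynomial.C (LinearMap.trace T V f) * Polynomial.X +
      Polynomial.C (LinearMap.det f) := by
    rw [← LinearMap.charpoly_toMatrix f b, Matrix.charpoly_fin_two, LinearMap.det_toMatrix,
      ← LinearMap.trace_eq_matrix_trace T b f]
  have h3 := LinearMap.aeval_self_charpoly f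
  rw [h1] at h3
  have h4 := congrArg (fun g => g v) h3
  simp only [map_add, map_sub, map_mul, Polynomial.aeval_X, Polynomial.aeval_C,
    LinearMap.add_apply, LinearMap.sub_apply, LinearMap.zero_apply, Module.End.mul_apply, pow_two,
    Module.algebraMap_end_apply] at h4
  rw [sub_add, sub_eq_zero] at h4
  exact h4

/-- The kernel of `V → k ⊗ V`. -/
theorem mem_of_tmul_eq_zero {V : Type} [AddCommGroup V] [Module T V] [Module.Free T V]
    [Module.Finite T V] (v : V) (h : (1 : IsLocalRing.ResidueField T) ⊗ₜ[T] v = 0) :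
    v ∈ IsLocalRing.maximalIdeal T • (⊤ : Submodule T V) := by
  let b := Module.Free.chooseBasis T V
  rw [← b.sum_repr v]
  refine Submodule.sum_mem _ fun i _ => Submodule.smul_mem_smul ?_ Submodule.mem_top
  have h1 := congrArg (fun x => (b.baseChange (IsLocalRing.ResidueField T)).repr x i) h
  simp only [Module.Basis.baseChange_repr_tmul, map_zero, Finsupp.zero_apply] at h1
  rw [Algebra.smul_def, mul_one, IsLocalRing.ResidueField.algebraMap_eq,
    IsLocalRing.residue_eq_zero_iff] at h1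
  exact h1

/-- If `c • v ∈ I V` and `v ∉ 𝔪 V` then `c ∈ I`. -/
theorem mem_of_smul_mem {V : Type} [AddCommGroup V] [Module T V] [Module.Free T V]
    [Module.Finite T V] (I : Ideal T) (c : T) (v : V) (h : c • v ∈ I • (⊤ : Submodule T V))
    (hv : v ∉ IsLocalRing.maximalIdeal T • (⊤ : Submodule T V)) : c ∈ I := by
  let b := Module.Free.chooseBasis T V
  have h1 : ∃ i, b.repr v i ∉ IsLocalRing.maximalIdeal T := by
    by_contra hcon
    push Not at hcon
    apply hv
    rw [← b.sum_repr v]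
    exact Submodule.sum_mem _ fun i _ => Submodule.smul_mem_smul (hcon i) Submodule.mem_top
  obtain ⟨i, hi⟩ := h1
  have h2 : b.repr (c • v) i ∈ I := by
    have h3 : ∀ w ∈ I • (⊤ : Submodule T V), b.repr w i ∈ I := by
      intro w hw
      refine Submodule.smul_induction_on hw (fun r hr w _ => ?_) (fun x y hx hy => ?_)
      · rw [map_smul, Finsupp.smul_apply, smul_eq_mul]
        exact I.mul_mem_right _ hr
      · rw [map_add, Finsupp.add_apply]
        exact I.add_mem hx hy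
    exact h3 _ h
  rw [map_smul, Finsupp.smul_apply, smul_eq_mul] at h2
  have h4 : IsUnit (b.repr v i) := by
    rwa [IsLocalRing.mem_maximalIdeal, mem_nonunits_iff, not_not] at hi
  obtain ⟨w, hw⟩ := h4
  have h5 := I.mul_mem_right ((w⁻¹ : Tˣ) : T) h2
  rwa [← hw, mul_assoc, Units.mul_inv, mul_one] at h5

end

/-- **Flat and residually ordinary implies ordinary** (`p` odd). -/
theorem isOrdinaryAt_of_isFlatAt {T : Type} [CommRing T] [IsLocalRing T] [IsNoetherianRing T]
    (ρ : GaloisRepAdic T) {p : ℕ} (hp : p.Prime) (hp2 : p ≠ 2)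
    (hpT : (p : T) ∈ IsLocalRing.maximalIdeal T) (hflat : ρ.IsFlatAt p)
    (hres : (GaloisRepAdic.ofResidualGaloisRep ρ.residual).IsOrdinaryAt p)
    (hdet : ∀ P : ValuationSubring (AlgebraicClosure ℚ), P.LiesOverPrime p →
      ∃ σ ∈ P.inertiaSubgroupIn ℚ, IsUnit (LinearMap.det (ρ.ρ σ) - 1)) :
    ρ.IsOrdinaryAt p := by
  intro P hP
  obtain ⟨σ, hσ, hu⟩ := hdet P hP
  have hσD := InertiaLift.mem_decompositionSubgroup_of_mem_inertia P hσ
  obtain ⟨Lbar, ⟨bbar, hbbar⟩, hDbar, hIbar⟩ := hres P hP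
  set f := ρ.ρ σ with hf
  set d := LinearMap.det f with hd
  let k := IsLocalRing.ResidueField T
  set 𝔪 := IsLocalRing.maximalIdeal T with h𝔪
  -- the action on `k ⊗ V`
  have hact : ∀ (τ : GQ) (v : ρ.V),
      (GaloisRepAdic.ofResidualGaloisRep ρ.residual).ρ τ ((1 : k) ⊗ₜ[T] v) = (1 : k) ⊗ₜ[T] (ρ.ρ τ v) :=
    fun τ v => LinearMap.baseChange_tmul _ _ _
  have hdetbar : LinearMap.det ((GaloisRepAdic.ofResidualGaloisRep ρ.residual).ρ σ) =
      IsLocalRing.residue T d := LinearMap.det_baseChange _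
  have hubar : IsUnit (LinearMap.det ((GaloisRepAdic.ofResidualGaloisRep ρ.residual).ρ σ) - 1) := by
    rw [hdetbar, ← map_one (IsLocalRing.residue T), ← map_sub]
    exact hu.map (IsLocalRing.residue T)
  have hmembar : ∀ w : (GaloisRepAdic.ofResidualGaloisRep ρ.residual).V, w ∈ Lbar ↔
      (GaloisRepAdic.ofResidualGaloisRep ρ.residual).ρ σ w = IsLocalRing.residue T d • w := fun w => by
    have := Glue.mem_line_iff bbar ((GaloisRepAdic.ofResidualGaloisRep ρ.residual).ρ σ)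
      (by rw [← hbbar]; exact hDbar σ hσD) (by rw [← hbbar]; exact hIbar σ hσ) hubar w
    rwa [← hbbar, hdetbar] at this
  -- the preimage of the line
  let Lt : Submodule T ρ.V :=
    { carrier := {v | (1 : k) ⊗ₜ[T] v ∈ Lbar}
      zero_mem' := by
        show (1 : k) ⊗ₜ[T] (0 : ρ.V) ∈ Lbar
        rw [TensorProduct.tmul_zero]; exact Submodule.zero_mem _
      add_mem' := fun {a b} ha hb => by
        show (1 : k) ⊗ₜ[T] (a + b) ∈ Lbar
        rw [TensorProduct.tmul_add]; exact Submodule.add_mem _ ha hb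
      smul_mem' := fun c a ha => by
        show (1 : k) ⊗ₜ[T] (c • a) ∈ Lbar
        have : (1 : k) ⊗ₜ[T] (c • a) = (IsLocalRing.residue T c) • ((1 : k) ⊗ₜ[T] a) := by
          rw [TensorProduct.tmul_smul, TensorProduct.smul_tmul', TensorProduct.smul_tmul',
            smul_eq_mul, Algebra.smul_def]
          rfl
        rw [this]
        exact Submodule.smul_mem _ _ ha }
  have hLt : ∀ v, v ∈ Lt ↔ (1 : k) ⊗ₜ[T] v ∈ Lbar := fun v => Iff.rfl
  have hLtI : ∀ τ ∈ P.inertiaSubgroupIn ℚ, ∀ v, ρ.ρ τ v - v ∈ Lt := by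
    intro τ hτ v
    rw [hLt, TensorProduct.tmul_sub, ← hact]
    exact hIbar τ hτ _
  have hLtd : ∀ v ∈ Lt, f v - d • v ∈ 𝔪 • (⊤ : Submodule T ρ.V) := by
    intro v hv
    have hv' : (GaloisRepAdic.ofResidualGaloisRep ρ.residual).ρ σ ((1 : k) ⊗ₜ[T] v) =
        IsLocalRing.residue T d • ((1 : k) ⊗ₜ[T] v) := (hmembar _).mp hv
    have hv'' := (hact σ v).symm.trans hv'
    apply mem_of_tmul_eq_zero
    rw [TensorProduct.tmul_sub, sub_eq_zero]
    refine hv''.trans ?_
    rw [TensorProduct.tmul_smul, TensorProduct.smul_tmul', TensorProduct.smul_tmul',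
      smul_eq_mul, Algebra.smul_def]
    rfl
  have hmLt : 𝔪 • (⊤ : Submodule T ρ.V) ≤ Lt := by
    rw [Submodule.smul_le]
    intro r hr v _
    rw [hLt, TensorProduct.tmul_smul, TensorProduct.smul_tmul', Algebra.smul_def,
      IsLocalRing.ResidueField.algebraMap_eq, (IsLocalRing.residue_eq_zero_iff r).mpr hr,
      zero_mul, TensorProduct.zero_tmul]
    exact Submodule.zero_mem _
  obtain ⟨y, hy⟩ : ∃ y : ρ.V, y ∉ Lt := by
    have hsurj : ∀ w : k ⊗[T] ρ.V, ∃ v : ρ.V, (1 : k) ⊗ₜ[T] v = w := by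
      intro w
      induction w using TensorProduct.induction_on with
      | zero => exact ⟨0, TensorProduct.tmul_zero _ _⟩
      | tmul c v =>
        obtain ⟨t, rfl⟩ := IsLocalRing.residue_surjective c
        refine ⟨t • v, ?_⟩
        rw [TensorProduct.tmul_smul, TensorProduct.smul_tmul', Algebra.smul_def, mul_one]
        rfl
      | add a b ha hb =>
        obtain ⟨v, rfl⟩ := ha
        obtain ⟨v', rfl⟩ := hb
        exact ⟨v + v', TensorProduct.tmul_add _ _ _⟩
    obtain ⟨y, hy⟩ := hsurj (bbar 1)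
    refine ⟨y, fun h => ?_⟩
    have h1 : bbar 1 ∈ Lbar := by
      have h2 := (hLt y).mp h
      rw [hy] at h2
      exact h2
    rw [hbbar, Submodule.mem_span_singleton] at h1
    obtain ⟨c, hc⟩ := h1
    have h3 := congrArg (fun x => bbar.repr x 1) hc
    simp at h3
  -- kernels of reduction at each level
  choose W hWm hWD hWI hWN using fun n => exists_kernel ρ hp hp2 hpT hflat P hP n
  have hres' : Finite (IsLocalRing.ResidueField T) := hflat.1
  have hanti : ∀ {i j : ℕ}, i ≤ j → 𝔪 ^ j • (⊤ : Submodule T ρ.V) ≤ 𝔪 ^ i • (⊤ : Submodule T ρ.V) :=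
    fun hij => Submodule.smul_mono (Ideal.pow_le_pow_right hij) le_rfl
  have hdet1 : ∀ (i : ℕ) (v : ρ.V), (d - 1) • v ∈ 𝔪 ^ i • (⊤ : Submodule T ρ.V) →
      v ∈ 𝔪 ^ i • (⊤ : Submodule T ρ.V) := by
    intro i v hv
    obtain ⟨u, hu⟩ := hu
    have h3 := Submodule.smul_mem _ ((u⁻¹ : Tˣ) : T) hv
    rwa [← hu, smul_smul, Units.inv_mul, one_smul] at h3
  -- Step 1
  have hstep1 : ∀ n, ∀ v ∈ W n, f v - v ∈ 𝔪 ^ n • (⊤ : Submodule T ρ.V) →
      v ∈ 𝔪 ^ n • (⊤ : Submodule T ρ.V) := by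
    intro n v hvW hv
    have hind : ∀ i ≤ n, v ∈ 𝔪 ^ i • (⊤ : Submodule T ρ.V) := by
      intro i
      induction i with
      | zero => intro _; rw [pow_zero, Ideal.one_eq_top, Submodule.top_smul]; exact Submodule.mem_top
      | succ i ih =>
        intro hi
        have hvi := ih (by omega)
        let N : AddSubgroup ρ.V := W n ⊓ (𝔪 ^ i • (⊤ : Submodule T ρ.V)).toAddSubgroup
        let N' : Submodule T ρ.V := 𝔪 ^ i • Lt ⊔ 𝔪 ^ (i + 1) • (⊤ : Submodule T ρ.V)
        have h1 : N ≤ N'.toAddSubgroup := by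
          refine hWN n N N'.toAddSubgroup inf_le_left ?_ ?_ ?_
          · intro v hv
            exact Submodule.mem_sup_right (hanti hi hv)
          · intro τ hτ v hv
            exact ⟨hWD n τ (InertiaLift.mem_decompositionSubgroup_of_mem_inertia P hτ) v hv.1,
              lin_mem ρ _ _ hv.2⟩
          · intro τ hτ v hv
            refine Submodule.mem_sup_left ?_
            have h2 : (ρ.ρ τ - 1 : Module.End T ρ.V) v ∈
                (𝔪 ^ i • (⊤ : Submodule T ρ.V)).map (ρ.ρ τ - 1 : Module.End T ρ.V) := ⟨v, hv.2, rfl⟩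
            rw [Submodule.map_smul''] at h2
            refine Submodule.smul_mono le_rfl ?_ h2
            rintro _ ⟨w, -, rfl⟩
            exact hLtI τ hτ w
        have h2 : v ∈ N' := h1 ⟨hvW, hvi⟩
        have h3 : f v - d • v ∈ 𝔪 ^ (i + 1) • (⊤ : Submodule T ρ.V) := by
          let g : ρ.V →ₗ[T] ρ.V := f - d • LinearMap.id
          have hg : ∀ w, g w = f w - d • w := fun w => rfl
          rw [← hg]
          have h4 : g v ∈ N'.map g := ⟨v, h2, rfl⟩
          rw [Submodule.map_sup, Submodule.map_smul'', Submodule.map_smul''] at h4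
          refine (sup_le ?_ ?_ : _ ≤ 𝔪 ^ (i + 1) • (⊤ : Submodule T ρ.V)) h4
          · rw [pow_succ, Submodule.mul_smul]
            refine Submodule.smul_mono le_rfl ?_
            rintro _ ⟨w, hw, rfl⟩
            exact hLtd w hw
          · exact Submodule.smul_mono le_rfl le_top
        have h5 := Submodule.sub_mem _ (hanti hi hv) h3
        have h6 : f v - v - (f v - d • v) = (d - 1) • v := by
          rw [sub_smul, one_smul]; abel
        rw [h6] at h5
        exact hdet1 _ _ h5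
    exact hind n le_rfl
  -- Step 2
  have hstep2 : ∀ n, ∀ w ∈ W n, ∃ w' ∈ W n, w - (f w' - w') ∈ 𝔪 ^ n • (⊤ : Submodule T ρ.V) := by
    intro n w hw
    have hfin : Finite (T ⧸ 𝔪 ^ n) := finite_level n
    have hfinM : Finite (ρ.V ⧸ (𝔪 ^ n • (⊤ : Submodule T ρ.V))) := finite_levelModule ρ _
    have hfinM' : Finite (ρ.V ⧸ (𝔪 ^ n • (⊤ : Submodule T ρ.V)).toAddSubgroup) := hfinM
    exact surj_mod (𝔪 ^ n • (⊤ : Submodule T ρ.V)).toAddSubgroup (W n)
      (f - 1 : Module.End T ρ.V).toAddMonoidHom (fun v _ => hWI n σ hσ v)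
      (fun v hv => lin_mem ρ _ (f - 1 : Module.End T ρ.V) hv) (fun v hv h => hstep1 n v hv h) w hw
  -- Step 3
  set χ : T := 1 - LinearMap.trace T ρ.V f + d with hχ
  have hCH := cayley_hamilton ρ.finrank_eq f
  have hfd : ∀ v, f (f v - v) - d • (f v - v) = -(χ • f v) := by
    intro v
    rw [map_sub, hCH v, hχ, add_smul, sub_smul, one_smul, smul_sub]
    abel
  have hne : 𝔪 ≠ ⊤ := Ideal.IsPrime.ne_top inferInstance
  have hχn : ∀ n, χ ∈ 𝔪 ^ n := by
    intro n
    rcases Nat.eq_zero_or_pos n with rfl | hn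
    · rw [pow_zero, Ideal.one_eq_top]; exact Submodule.mem_top
    have hn1 : 𝔪 ^ n • (⊤ : Submodule T ρ.V) ≤ 𝔪 • (⊤ : Submodule T ρ.V) := by
      have := hanti (i := 1) (j := n) hn
      rwa [pow_one] at this
    have hWLt : ∀ w ∈ W n, w ∈ Lt := by
      intro w hw
      obtain ⟨w', -, h⟩ := hstep2 n w hw
      have h1 := Submodule.add_mem _ (hmLt (hn1 h)) (hLtI σ hσ w')
      rwa [sub_add_cancel] at h1
    obtain ⟨w, hw, hyw⟩ := hstep2 n _ (hWI n σ hσ y)
    have hx : y - w ∉ Lt := fun h => hy (by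
      have := Submodule.add_mem _ h (hWLt w hw)
      rwa [sub_add_cancel] at this)
    have h1 : f (y - w) - (y - w) ∈ 𝔪 ^ n • (⊤ : Submodule T ρ.V) := by
      have h2 : f (y - w) - (y - w) = f y - y - (f w - w) := by rw [map_sub]; abel
      rw [h2]; exact hyw
    have h3 : χ • f (y - w) ∈ 𝔪 ^ n • (⊤ : Submodule T ρ.V) := by
      have h4 := lin_mem ρ _ (f - d • LinearMap.id : ρ.V →ₗ[T] ρ.V) h1
      have h5 : (f - d • LinearMap.id : ρ.V →ₗ[T] ρ.V) (f (y - w) - (y - w)) =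
          -(χ • f (y - w)) := hfd (y - w)
      rw [h5] at h4
      have h6 := Submodule.neg_mem _ h4
      rwa [neg_neg] at h6
    have h7 : χ • (y - w) ∈ 𝔪 ^ n • (⊤ : Submodule T ρ.V) := by
      have h8 := lin_mem ρ _ (ρ.ρ σ⁻¹) h3
      have h9 : ρ.ρ σ⁻¹ (f (y - w)) = y - w := by
        show (ρ.ρ σ⁻¹ * ρ.ρ σ) (y - w) = y - w
        rw [← map_mul, inv_mul_cancel, map_one]
        rfl
      rwa [map_smul, h9] at h8
    exact mem_of_smul_mem _ χ (y - w) h7 (fun h => hx (hmLt h))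
  have hχ0 : χ = 0 := by
    have h1 : χ ∈ (⨅ i : ℕ, 𝔪 ^ i) := by
      rw [Ideal.mem_iInf]; exact hχn
    rwa [Ideal.iInf_pow_eq_bot_of_isLocalRing 𝔪 hne, Ideal.mem_bot] at h1
  -- Step 4
  have hsplit : ∀ v, f (f v - v) = d • (f v - v) := by
    intro v
    have h1 := hfd v
    rwa [hχ0, zero_smul, neg_zero, sub_eq_zero] at h1
  have hdu : IsUnit d := (ρ.det σ).isUnit
  obtain ⟨b, hb⟩ := Glue.exists_basis_of_split ρ.finrank_eq f hdu hu hsplit
  have hL : ∀ v, v ∈ LinearMap.ker (f - d • LinearMap.id) ↔ f v = d • v := fun v => by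
    rw [LinearMap.mem_ker, LinearMap.sub_apply, LinearMap.smul_apply, LinearMap.id_apply,
      sub_eq_zero]
  -- membership in the line can be tested at all levels
  have hmem : ∀ v, (∀ n, v ∈ W n) → f v = d • v := by
    intro v hv
    have h1 : f v - d • v ∈ (⨅ i : ℕ, 𝔪 ^ i • ⊤ : Submodule T ρ.V) := by
      rw [Submodule.mem_iInf]
      intro n
      obtain ⟨w', -, h⟩ := hstep2 n v (hv n)
      have h2 := lin_mem ρ _ (f - d • LinearMap.id : ρ.V →ₗ[T] ρ.V) h
      have h3 : (f - d • LinearMap.id : ρ.V →ₗ[T] ρ.V) (v - (f w' - w')) = f v - d • v := by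
        show f (v - (f w' - w')) - d • (v - (f w' - w')) = _
        rw [map_sub, hsplit w', smul_sub d v (f w' - w')]
        abel
      rwa [h3] at h2
    rwa [Ideal.iInf_pow_smul_eq_bot_of_isLocalRing 𝔪 hne, Submodule.mem_bot, sub_eq_zero] at h1
  have hmem' : ∀ v, f v = d • v → ∀ n, v ∈ W n := by
    intro v hv n
    obtain ⟨u, hu⟩ := hu
    have h1 := hWI n σ hσ (((u⁻¹ : Tˣ) : T) • v)
    have h2 : ρ.ρ σ (((u⁻¹ : Tˣ) : T) • v) - ((u⁻¹ : Tˣ) : T) • v = v := by
      show f (((u⁻¹ : Tˣ) : T) • v) - _ = v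
      rw [map_smul, hv, ← smul_sub]
      have h3 : d • v - v = (d - 1) • v := by rw [sub_smul, one_smul]
      rw [h3, ← hu, smul_smul, Units.inv_mul, one_smul]
    rwa [h2] at h1
  refine ⟨LinearMap.ker (f - d • LinearMap.id), ⟨b, hb⟩, ?_, ?_⟩
  · intro τ hτ v hv
    rw [hL] at hv ⊢
    exact hmem _ fun n => hWD n τ hτ v (hmem' v hv n)
  · intro τ hτ v
    rw [hL]
    exact hmem _ fun n => hWI n τ hτ v

end Fermat.Agent.FlatOrd.Main
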