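import Mathlib
import Fermat.Prelude.Def_GaloisRep_Flat
import Fermat.Agent.QbarInst
import Fermat.Agent.FlatOrd.InertiaLift
import Fermat.Agent.FlatOrd.Unramified
import Fermat.Agent.FlatOrd.Key
import Fermat.Agent.FlatOrd.Main

/-!
# Inertia at `p` acts non-trivially on `μ_p` (`p` odd), and cyclotomic determinants
-/

set_option autoImplicit false

open Pointwise TensorProduct
open Fermat.Agent.FrobExists

namespace Fermat.Agent.FlatOrd.Cyc

local notation "Qbar" => AlgebraicClosure ℚ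
local notation "GQ" => (AlgebraicClosure ℚ ≃ₐ[ℚ] AlgebraicClosure ℚ)

/-- A `p`-th root of unity is congruent to `1` modulo a place over `p`. -/
theorem sub_one_mem_nonunits {p : ℕ} (hp : p.Prime) (P : ValuationSubring Qbar)
    (hP : P.LiesOverPrime p) {ζ : Qbar} (hζ : ζ ^ p = 1) : ζ - 1 ∈ P.nonunits := by
  have hζP : ζ ∈ P := mem_of_isIntegral P (IsIntegral.of_pow hp.pos (by rw [hζ]; exact isIntegral_one))
  let r : IsLocalRing.ResidueField P := IsLocalRing.residue P ⟨ζ, hζP⟩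
  have hpm : (p : P) ∈ IsLocalRing.maximalIdeal P := by
    rw [← ValuationSubring.coe_mem_nonunits_iff]
    simpa using! hP
  have hchar : CharP (IsLocalRing.ResidueField P) p := by
    refine (CharP.charP_iff_prime_eq_zero hp).mpr ?_
    rw [← map_natCast (IsLocalRing.residue P), IsLocalRing.residue_eq_zero_iff]
    exact hpm
  have hfact : Fact p.Prime := ⟨hp⟩
  have h1 : (r - 1) ^ p = 0 := by
    rw [sub_pow_char, one_pow, ← map_pow, sub_eq_zero, ← map_one (IsLocalRing.residue P)]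
    congr 1
    exact Subtype.ext hζ
  have h2 : r - 1 = 0 := by
    exact pow_eq_zero_iff hp.ne_zero |>.mp h1
  have h3 : IsLocalRing.residue P (⟨ζ, hζP⟩ - 1) = 0 := by
    rw [map_sub, map_one]; exact h2
  rw [IsLocalRing.residue_eq_zero_iff, ← ValuationSubring.coe_mem_nonunits_iff] at h3
  exact h3

/-- Inertia at `p` acts non-trivially on `μ_p` (`p` odd). -/
theorem exists_inertia_cyclotomic {p : ℕ} (hp : p.Prime) (hp2 : p ≠ 2) (P : ValuationSubring Qbar)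
    (hP : P.LiesOverPrime p) : ∃ σ ∈ P.inertiaSubgroupIn ℚ, ∃ a : ℕ,
      (∀ μ : Qbar, μ ^ p = 1 → σ μ = μ ^ a) ∧ ¬ (p : ℤ) ∣ (a : ℤ) - 1 := by
  have hne : NeZero p := ⟨hp.ne_zero⟩
  obtain ⟨ζ, hζ⟩ := HasEnoughRootsOfUnity.exists_primitiveRoot Qbar p
  have hex : ∃ σ ∈ P.inertiaSubgroupIn ℚ, σ ζ ≠ ζ := by
    by_contra hcon
    push Not at hcon
    obtain ⟨z, hz, hζz⟩ := Unramified.exists_eq_mul_of_fixed P hp hP (ζ - 1)
      (fun σ hσ => by rw [map_sub, hcon σ hσ, map_one]) (sub_one_mem_nonunits hp P hP hζ.pow_eq_one)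
    have h1 := Key.root_eq_one P hp hp2 hP hz (by rw [← hζz]; ring : ζ = 1 + p * z) hζ.pow_eq_one
    rw [h1] at hζ
    exact hp.one_lt.ne' (hζ.unique IsPrimitiveRoot.one)
  obtain ⟨σ, hσ, hσζ⟩ := hex
  have h2 : (σ ζ) ^ p = 1 := by rw [← map_pow, hζ.pow_eq_one, map_one]
  obtain ⟨a, -, ha⟩ := hζ.eq_pow_of_pow_eq_one h2
  refine ⟨σ, hσ, a, ?_, ?_⟩
  · intro μ hμ
    obtain ⟨i, -, rfl⟩ := hζ.eq_pow_of_pow_eq_one hμ
    rw [map_pow, ← ha, ← pow_mul, ← pow_mul, mul_comm]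
  · intro hdvd
    apply hσζ
    rw [← ha]
    have h3 : (a : ℤ) ≡ (1 : ℕ) [ZMOD p] := (Int.modEq_iff_dvd.mpr (by
      rw [← neg_sub, dvd_neg] at hdvd
      push_cast
      exact hdvd))
    have h4 : a ≡ 1 [MOD p] := (Int.natCast_modEq_iff).mp h3
    have h5 : ζ ^ a = ζ ^ 1 := by
      rw [pow_eq_pow_mod a hζ.pow_eq_one, pow_eq_pow_mod 1 hζ.pow_eq_one]
      exact congrArg (fun i => ζ ^ i) h4
    rw [h5, pow_one]

/-- If `det ρ` is cyclotomic then some inertia element has `det ρ(σ) - 1` a unit. -/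
theorem exists_isUnit_det_sub_one {T : Type} [CommRing T] [IsLocalRing T] (ρ : GaloisRepAdic T)
    {p : ℕ} (hp : p.Prime) (hp2 : p ≠ 2) (hdet : ρ.DetIsCyclotomic p)
    (P : ValuationSubring Qbar) (hP : P.LiesOverPrime p) :
    ∃ σ ∈ P.inertiaSubgroupIn ℚ, IsUnit (LinearMap.det (ρ.ρ σ) - 1) := by
  obtain ⟨σ, hσ, a, ha, hdvd⟩ := exists_inertia_cyclotomic hp hp2 P hP
  refine ⟨σ, hσ, ?_⟩
  have h1 := hdet.2 1 σ a (by rwa [pow_one])
  rw [pow_one, Ideal.mem_span_singleton] at h1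
  obtain ⟨c, hc⟩ := h1
  have hcop : IsCoprime ((a : ℤ) - 1) (p : ℤ) := by
    rw [Int.isCoprime_iff_gcd_eq_one]
    rcases (Nat.dvd_prime hp).mp (Int.gcd_dvd_natAbs_right ((a : ℤ) - 1) (p : ℤ)) with h | h
    · exact h
    · exfalso
      apply hdvd
      have := Int.gcd_dvd_left ((a : ℤ) - 1) (p : ℤ)
      rwa [h] at this
  obtain ⟨x, y, hxy⟩ := hcop
  have hxyT : (x : T) * ((a : T) - 1) + y * p = 1 := by exact_mod_cast congrArg (Int.cast (R := T)) hxy
  by_contra hnu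
  have h2 : LinearMap.det (ρ.ρ σ) - 1 ∈ IsLocalRing.maximalIdeal T := hnu
  have h3 : (1 : T) ∈ IsLocalRing.maximalIdeal T := by
    have h4 : (1 : T) = x * (LinearMap.det (ρ.ρ σ) - 1) + (y - x * c) * p := by
      linear_combination (-1 : T) * hxyT - (x : T) * hc
    rw [h4]
    exact Ideal.add_mem _ (Ideal.mul_mem_left _ _ h2) (Ideal.mul_mem_left _ _ hdet.1)
  exact (Ideal.ne_top_iff_one _).mp (Ideal.IsPrime.ne_top inferInstance) h3

/-- **Flat, residually ordinary and cyclotomic determinant implies ordinary** (`p` odd). -/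
theorem isOrdinaryAt_of_isFlatAt_of_detIsCyclotomic {T : Type} [CommRing T] [IsLocalRing T]
    [IsNoetherianRing T] (ρ : GaloisRepAdic T) {p : ℕ} (hp : p.Prime) (hp2 : p ≠ 2)
    (hflat : ρ.IsFlatAt p) (hdet : ρ.DetIsCyclotomic p)
    (hres : (GaloisRepAdic.ofResidualGaloisRep ρ.residual).IsOrdinaryAt p) :
    ρ.IsOrdinaryAt p :=
  Main.isOrdinaryAt_of_isFlatAt ρ hp hp2 hdet.1 hflat hres
    fun P hP => exists_isUnit_det_sub_one ρ hp hp2 hdet P hP

end Fermat.Agent.FlatOrd.Cyc
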