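import Fermat.Agent.FlatMatch.New
import Fermat.Agent.S32Wiring
import Fermat.Agent.DR.Ord.Final
import Fermat.Agent.JAN.AnnFinal
import Fermat.Agent.DR.AllInputs
import Fermat.Agent.Flat.JZeroFlat
import Fermat.Agent.CMP.Newness

/-!
# Ordinarity at `p` of the representations attached to points of Hecke algebras of level `Mp`

* `isOrdinaryAt_of_new`: `p`-new points (no residual hypothesis);
* `isOrdinaryAt_of_old`: `p`-old points, residually ordinary.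
-/

set_option autoImplicit false
set_option linter.style.haveILetI false

noncomputable section

open Polynomial IsLocalRing ModularCurve Fermat.FlatMatch Fermat.FlatModel
open Fermat.Agent.DR.S36

namespace Fermat.Agent.FlatOrd.S33

local notation "Qbar" => AlgebraicClosure ℚ

/-- The push-forwards `J₀(Mp) → J₀(M)` along the two degeneracy maps and their Hecke
equivariance. -/
def DegeneracyInput (M p : ℕ) [NeZero M] [NeZero p] : Prop :=
  ∃ αP βP : JZero (M * p) →+ JZero M,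
    (∀ x, αP x = 0 → PushZero (heckeAlphaBar (AlgebraicClosure ℚ) M p) x) ∧
    (∀ x, βP x = 0 → PushZero (heckeBetaBar (AlgebraicClosure ℚ) M p) x) ∧
    ∀ (S : Finset ℕ) (_ : ∀ q : ℕ, q.Prime → q ∣ M * p → q ∈ S) (a : AnemicAlg S)
      (x : JZero (M * p)),
      letI := heckeModuleBar (M * p)
      letI := heckeModuleBar M
      αP (anemicIncl S a • x) = anemicIncl S a • αP x ∧
      βP (anemicIncl S a • x) = anemicIncl S a • βP x

theorem inputs_of_prime (N p : ℕ) [NeZero N] (hp : p.Prime) (S : Finset ℕ) :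
    S30Wiring.Inputs N p S :=
  (GAL.Final.galInputs Fermat.Agent.DR.allInputs N p hp).inputs hp S

theorem flatTorsionInput (M p : ℕ) [NeZero M] [hpf : Fact p.Prime] (hpM : ¬ p ∣ M) :
    S32Wiring.FlatTorsionInput M p := by
  intro k
  obtain ⟨H, iC, iH, hfin, hflat, hcoc, e, he, hσ⟩ :=
    Fermat.Agent.Flat.JZeroFlat.isFlatModel_torsion M p hpM k
  exact ⟨H, iC, iH, hfin, hflat, hcoc, e, he, fun σ f g hfg =>
    congrArg Subtype.val (hσ σ f g hfg)⟩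

section

variable {M p : ℕ} [NeZero M] [hpf : Fact p.Prime] {S : Finset ℕ}
  {𝒪 : Type} [CommRing 𝒪] [IsDomain 𝒪] [IsDiscreteValuationRing 𝒪]
  [IsAdicComplete (IsLocalRing.maximalIdeal 𝒪) 𝒪]

/-- **`p`-new points are ordinary at `p`.** -/
theorem isOrdinaryAt_of_new (hD : DegeneracyInput M p) [Finite (ResidueField 𝒪)] [CharZero 𝒪]
    (hp2 : p ≠ 2) (hp𝒪 : (p : 𝒪) ∈ maximalIdeal 𝒪) (hpM : ¬ p ∣ M)
    (hNS : ∀ q : ℕ, q.Prime → q ∣ M * p → q ∈ S) (hMS : ∀ q : ℕ, q.Prime → q ∣ M → q ∈ S)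
    (π : CuspForm.heckeAlgebra (M * p) 2 (↑S : Set ℕ) →+* 𝒪) (ρ : GaloisRepAdic 𝒪)
    (hcharpoly : ∀ (ℓ : ℕ) (hℓ : ℓ.Prime) (hℓN : ¬ ℓ ∣ M * p) (hℓS : ℓ ∉ (↑S : Set ℕ)),
      ∀ A : ValuationSubring (AlgebraicClosure ℚ), A.LiesOverPrime ℓ →
        ∀ σ : AlgebraicClosure ℚ ≃ₐ[ℚ] AlgebraicClosure ℚ, A.IsFrobeniusAt σ ℓ →
          LinearMap.charpoly (ρ.ρ σ) = Polynomial.X ^ 2 -
            Polynomial.C (π (CuspForm.heckeAlgebra.T hℓ hℓN hℓS)) * Polynomial.X +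
            Polynomial.C ((ℓ : 𝒪)))
    (hirr : ρ.residual.IsAbsolutelyIrreducible)
    (t : AnemicAlg S) (ht : anemicEval (N := M) hMS t = 0) (hπt : π (anemicEval hNS t) ≠ 0) :
    ρ.IsOrdinaryAt p := by
  have hp := hpf.out
  have hpS : p ∈ S := hNS p hp (dvd_mul_left p M)
  have I := inputs_of_prime (M * p) p hp S
  obtain ⟨αP, βP, hα0, hβ0, hequiv⟩ := hD
  intro A hA
  let _ := heckeModuleBar (M * p)
  let _ := heckeModuleBar M
  have _ : SMulCommClass GQ HeckeAlg (JZero (M * p)) := I.galois_hecke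
  have hfrob : FrobeniusQuadratic (K := ℚ) (L := AlgebraicClosure ℚ) (M * p) p (JZero (M * p)) :=
    S30Wiring.frobeniusQuadratic_of_specialization (I.specialization I.galois_hecke)
  have hfin : Finite {x : JZero (M * p) // p • x = 0} := by
    have h := I.finite 1
    rw [pow_one] at h
    exact h
  have hsupp : Support (M * p) p S (JZero (M * p)) := I.support
  have hsm : ∀ x : JZero (M * p), ∃ L : IntermediateField ℚ (AlgebraicClosure ℚ),
    FiniteDimensional ℚ L ∧ ∀ g : GQ, (∀ y ∈ L, g y = y) → g • x = x := I.smooth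
  obtain ⟨Kr, hKr, hmult⟩ := DR.Ord.exists_kr hpM A hA
  refine exists_line_of_new (J' := JZero M × JZero M) hp hp2 hp𝒪 hpS hNS π ρ hcharpoly hirr
    (JZero (M * p)) hsm hfrob hfin hsupp A hA (αP.prod βP) ?_ t ?_ hπt Kr hKr ?_
  · intro a x
    exact Prod.ext (hequiv S hNS a x).1 (hequiv S hNS a x).2
  · rintro n ⟨y₁, y₂⟩ hy
    have hn : p ^ n ≠ 0 := pow_ne_zero n hp.ne_zero
    exact Prod.ext (JAN.AnnFinal.smul_eq_zero_of_torsion hMS ht hn (congrArg Prod.fst hy))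
      (JAN.AnnFinal.smul_eq_zero_of_torsion hMS ht hn (congrArg Prod.snd hy))
  · intro m hm x hx hpx hαx τ hτ a ha
    exact hmult m hm x hx hpx (hα0 x (congrArg Prod.fst hαx)) (hβ0 x (congrArg Prod.snd hαx))
      τ hτ a ha

/-- **`p`-old residually ordinary points are ordinary at `p`.** -/
theorem isOrdinaryAt_of_old [Finite (ResidueField 𝒪)] [CharZero 𝒪]
    (hp2 : p ≠ 2) (hp𝒪 : (p : 𝒪) ∈ maximalIdeal 𝒪) (hpM : ¬ p ∣ M)
    (hNS : ∀ q : ℕ, q.Prime → q ∣ M * p → q ∈ S) (hMS : ∀ q : ℕ, q.Prime → q ∣ M → q ∈ S)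
    (π : CuspForm.heckeAlgebra (M * p) 2 (↑S : Set ℕ) →+* 𝒪) (ρ : GaloisRepAdic 𝒪)
    (hcharpoly : ∀ (ℓ : ℕ) (hℓ : ℓ.Prime) (hℓN : ¬ ℓ ∣ M * p) (hℓS : ℓ ∉ (↑S : Set ℕ)),
      ∀ A : ValuationSubring (AlgebraicClosure ℚ), A.LiesOverPrime ℓ →
        ∀ σ : AlgebraicClosure ℚ ≃ₐ[ℚ] AlgebraicClosure ℚ, A.IsFrobeniusAt σ ℓ →
          LinearMap.charpoly (ρ.ρ σ) = Polynomial.X ^ 2 -
            Polynomial.C (π (CuspForm.heckeAlgebra.T hℓ hℓN hℓS)) * Polynomial.X +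
            Polynomial.C ((ℓ : 𝒪)))
    (hirr : ρ.residual.IsAbsolutelyIrreducible)
    (hres : (GaloisRepAdic.ofResidualGaloisRep ρ.residual).IsOrdinaryAt p)
    (hker : ∀ t : AnemicAlg S, anemicEval (N := M) hMS t = 0 → π (anemicEval hNS t) = 0) :
    ρ.IsOrdinaryAt p := by
  have hp := hpf.out
  have hpS : p ∈ S := hNS p hp (dvd_mul_left p M)
  -- the determinant is cyclotomic
  have hdet : ρ.DetIsCyclotomic p := by
    refine Fermat.Agent.FrobCompare.detIsCyclotomic_of_frob Fermat.Agent.CMP.Density.frobDensity ρ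
      hp.ne_zero hp𝒪 S ?_
    intro ℓ hℓ hℓS P hP σ hσ
    have hℓN : ¬ ℓ ∣ M * p := fun h => hℓS (hNS ℓ hℓ h)
    have hcp := hcharpoly ℓ hℓ hℓN (by exact_mod_cast hℓS) P hP σ hσ
    rw [Fermat.Agent.BN2.charpoly_eq_of_finrank_two ρ.finrank_eq] at hcp
    have := congrArg (fun P => Polynomial.coeff P 0) hcp
    simpa [Polynomial.coeff_X, Polynomial.coeff_C] using this
  -- the character of level `M`
  have hsurj : Function.Surjective (S30Wiring.anemicEval (N := M) hMS).toRingHom :=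
    CMP.Newness.anemicEval_surjective hMS
  let ψ : S30Wiring.AnemicAlg S →+* 𝒪 := π.comp (S30Wiring.anemicEval (N := M * p) hNS).toRingHom
  let π' : CuspForm.heckeAlgebra M 2 (↑S : Set ℕ) →+* 𝒪 :=
    (S30Wiring.anemicEval (N := M) hMS).toRingHom.liftOfSurjective hsurj
      ⟨ψ, fun t ht => hker t ht⟩
  have hπ' : ∀ t : S30Wiring.AnemicAlg S, π' (S30Wiring.anemicEval (N := M) hMS t) = ψ t :=
    fun t => RingHom.liftOfRightInverse_comp_apply (S30Wiring.anemicEval (N := M) hMS).toRingHom _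
      (Function.rightInverse_surjInv hsurj) ⟨ψ, _⟩ t
  have hflat : ρ.IsFlatAt p := by
    refine S32Wiring.isFlatAt_core_of_inputs (𝒪 := 𝒪) (T := 𝒪) inferInstance hp hp2 hp𝒪 hpS hMS
      π' ρ ?_ hirr (inputs_of_prime M p hp S) (flatTorsionInput M p hpM)
    intro ℓ hℓ hℓM hℓS A hA σ hσ
    have hℓS' : ℓ ∉ S := fun h => hℓS (Finset.mem_coe.mpr h)
    have hℓN : ¬ ℓ ∣ M * p := fun h => hℓS' (hNS ℓ hℓ h)
    rw [hcharpoly ℓ hℓ hℓN hℓS A hA σ hσ,
      ← CMP.Newness.anemicEval_X hNS ⟨⟨ℓ, hℓ⟩, hℓS'⟩ hℓN hℓS,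
      ← CMP.Newness.anemicEval_X hMS ⟨⟨ℓ, hℓ⟩, hℓS'⟩ hℓM hℓS, hπ']
    rfl
  exact FlatOrd.Cyc.isOrdinaryAt_of_isFlatAt_of_detIsCyclotomic ρ hp hp2 hflat hdet hres

/-- **Residually ordinary points of level `Mp` are ordinary at `p`.** -/
theorem isOrdinaryAt_of_point (hD : DegeneracyInput M p) [Finite (ResidueField 𝒪)] [CharZero 𝒪]
    (hp2 : p ≠ 2) (hp𝒪 : (p : 𝒪) ∈ maximalIdeal 𝒪) (hpM : ¬ p ∣ M)
    (hNS : ∀ q : ℕ, q.Prime → q ∣ M * p → q ∈ S)
    (π : CuspForm.heckeAlgebra (M * p) 2 (↑S : Set ℕ) →+* 𝒪) (ρ : GaloisRepAdic 𝒪)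
    (hcharpoly : ∀ (ℓ : ℕ) (hℓ : ℓ.Prime) (hℓN : ¬ ℓ ∣ M * p) (hℓS : ℓ ∉ (↑S : Set ℕ)),
      ∀ A : ValuationSubring (AlgebraicClosure ℚ), A.LiesOverPrime ℓ →
        ∀ σ : AlgebraicClosure ℚ ≃ₐ[ℚ] AlgebraicClosure ℚ, A.IsFrobeniusAt σ ℓ →
          LinearMap.charpoly (ρ.ρ σ) = Polynomial.X ^ 2 -
            Polynomial.C (π (CuspForm.heckeAlgebra.T hℓ hℓN hℓS)) * Polynomial.X +
            Polynomial.C ((ℓ : 𝒪)))
    (hirr : ρ.residual.IsAbsolutelyIrreducible)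
    (hres : (GaloisRepAdic.ofResidualGaloisRep ρ.residual).IsOrdinaryAt p) :
    ρ.IsOrdinaryAt p := by
  have hMS : ∀ q : ℕ, q.Prime → q ∣ M → q ∈ S := fun q hq h => hNS q hq (h.mul_right p)
  by_cases h : ∀ t : AnemicAlg S, anemicEval (N := M) hMS t = 0 → π (anemicEval hNS t) = 0
  · exact isOrdinaryAt_of_old hp2 hp𝒪 hpM hNS hMS π ρ hcharpoly hirr hres h
  · push Not at h
    obtain ⟨t, ht, hπt⟩ := h
    exact isOrdinaryAt_of_new hD hp2 hp𝒪 hpM hNS hMS π ρ hcharpoly hirr t ht hπt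

end

end Fermat.Agent.FlatOrd.S33
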