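import Fermat.Agent.FlatOrd.S33Assembly
import Fermat.Agent.JAN.DegeneracyBar

/-!
# S33 and the ordinarity of `p`-new points, unconditionally
-/

set_option autoImplicit false
set_option linter.style.haveILetI false

noncomputable section

open Polynomial IsLocalRing ModularCurve Fermat.FlatMatch Fermat.FlatModel
open Fermat.Agent.DR.S36

namespace Fermat.Agent.FlatOrd.S33

theorem degeneracyInput (M p : ℕ) [NeZero M] [hpf : Fact p.Prime] : DegeneracyInput M p := by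
  refine ⟨JAN.Degeneracy.alphaPush M p, JAN.Degeneracy.betaPush M p, fun x hx hφ D hD => ?_,
    fun x hx hφ D hD => ?_, fun S hS a x => ⟨?_, ?_⟩⟩
  · subst hD
    exact (pic0_mk_eq_zero_iff _).mp hx
  · subst hD
    exact (pic0_mk_eq_zero_iff _).mp hx
  · exact JAN.Degeneracy.alphaPush_anemic hpf.out (hS p hpf.out (dvd_mul_left p M)) a x
  · exact JAN.Degeneracy.betaPush_anemic hpf.out (hS p hpf.out (dvd_mul_left p M)) a x

/-- **`p`-new points are ordinary at `p`**, without residual hypothesis. -/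
theorem newOrd {p : ℕ} (hp : p.Prime) (hp2 : p ≠ 2) (N : ℕ) [NeZero N] (S : Finset ℕ)
    (hNS : ∀ q : ℕ, q.Prime → q ∣ N → q ∈ S)
    (𝒪 : Type) [CommRing 𝒪] [IsDomain 𝒪] [IsDiscreteValuationRing 𝒪]
    [IsAdicComplete (maximalIdeal 𝒪) 𝒪] [Finite (ResidueField 𝒪)] [CharZero 𝒪]
    (hp𝒪 : (p : 𝒪) ∈ maximalIdeal 𝒪)
    (π : CuspForm.heckeAlgebra N 2 (↑S : Set ℕ) →+* 𝒪) (ρ : GaloisRepAdic 𝒪)
    (hcharpoly : ∀ (ℓ : ℕ) (hℓ : ℓ.Prime) (hℓN : ¬ ℓ ∣ N) (hℓS : ℓ ∉ (↑S : Set ℕ)),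
      ∀ A : ValuationSubring (AlgebraicClosure ℚ), A.LiesOverPrime ℓ →
        ∀ σ : AlgebraicClosure ℚ ≃ₐ[ℚ] AlgebraicClosure ℚ, A.IsFrobeniusAt σ ℓ →
          LinearMap.charpoly (ρ.ρ σ) = Polynomial.X ^ 2 -
            Polynomial.C (π (CuspForm.heckeAlgebra.T hℓ hℓN hℓS)) * Polynomial.X +
            Polynomial.C ((ℓ : 𝒪)))
    (hirr : ρ.residual.IsAbsolutelyIrreducible) (M : ℕ) [NeZero M] (hNM : N = M * p)
    (hpM : ¬ p ∣ M) (hMS : ∀ q : ℕ, q.Prime → q ∣ M → q ∈ S)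
    (t : S30Wiring.AnemicAlg S) (ht : S30Wiring.anemicEval (N := M) hMS t = 0)
    (hπt : π (S30Wiring.anemicEval (N := N) hNS t) ≠ 0) : ρ.IsOrdinaryAt p := by
  subst hNM
  have : Fact p.Prime := ⟨hp⟩
  exact isOrdinaryAt_of_new (degeneracyInput M p) hp2 hp𝒪 hpM hNS hMS π ρ hcharpoly hirr t ht hπt

end Fermat.Agent.FlatOrd.S33
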