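import Fermat.Agent.FlatOrd.S33Component
import Fermat.Agent.RT.Wiring.BC
import Fermat.Agent.RT.Components
import Fermat.Agent.RT.Reduced

/-!
# S33: gluing the components

`isOrdinaryAt_core`: representations over finite reduced torsion-free local `𝒪`-algebras `T`
receiving the Hecke algebra of level `Mp`; `s33_of_degeneracy`: the statement S33.
-/

set_option autoImplicit false
set_option linter.style.haveILetI false

noncomputable section

open Polynomial IsLocalRing ModularCurve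

namespace Fermat.Agent.FlatOrd.S33

open Fermat.Agent.DefCond Fermat.Agent.RT.Wiring

/-- A map from a finite local algebra to a local algebra is local. -/
theorem isLocalHom_of_finite {𝒪 T B : Type} [CommRing 𝒪] [IsLocalRing 𝒪] [CommRing T]
    [IsLocalRing T] [CommRing B] [IsLocalRing B] [Algebra 𝒪 T] [Algebra 𝒪 B] [Module.Finite 𝒪 T]
    [IsLocalHom (algebraMap 𝒪 B)] (φ : T →ₐ[𝒪] B) : IsLocalHom (φ : T →+* B) := by
  have hint : Algebra.IsIntegral 𝒪 T := Algebra.IsIntegral.of_finite 𝒪 T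
  have hc : ((maximalIdeal B).comap (φ : T →+* B)).comap (algebraMap 𝒪 T) = maximalIdeal 𝒪 := by
    rw [Ideal.comap_comap, φ.comp_algebraMap]
    exact ((local_hom_TFAE (algebraMap 𝒪 B)).out 0 4).mp ‹_›
  have hmax : ((maximalIdeal B).comap (φ : T →+* B)).IsMaximal := by
    refine Ideal.isMaximal_of_isIntegral_of_isMaximal_comap (R := 𝒪) _ ?_
    rw [hc]
    infer_instance
  exact ((local_hom_TFAE (φ : T →+* B)).out 0 4).mpr (IsLocalRing.eq_maximalIdeal hmax)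

section

variable {A B : Type} [CommRing A] [IsLocalRing A] [CommRing B] [IsLocalRing B]
  (φ : A →+* B) (hφ : IsLocalHom φ)

theorem isOrdinaryAt_of_isEquiv {ρ ρ' : GaloisRepAdic A} {p : ℕ} (e : ρ.IsEquiv ρ')
    (h : ρ.IsOrdinaryAt p) : ρ'.IsOrdinaryAt p := by
  obtain ⟨e⟩ := e
  rw [isOrdinaryAt_iff] at h ⊢
  intro P hP
  obtain ⟨b, hb⟩ := h P hP
  exact ⟨_, ordBasis_equiv e hb⟩

theorem residual_isOrdinaryAt_bc {ρ : GaloisRepAdic A} {p : ℕ}
    (h : (GaloisRepAdic.ofResidualGaloisRep ρ.residual).IsOrdinaryAt p) :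
    (GaloisRepAdic.ofResidualGaloisRep (ρ.baseChangeAlong φ hφ).residual).IsOrdinaryAt p := by
  have h1 := isOrdinaryAt_bc (ResidueField.map φ) (inferInstance) h
  refine isOrdinaryAt_of_isEquiv ?_ h1
  obtain ⟨M, hM⟩ := UDef.exists_model ρ
  refine (hM.residual.toAdic.baseChangeAlong (ResidueField.map φ) inferInstance).isEquiv
    (hM.baseChangeAlong φ hφ).residual.toAdic 1 isUnit_one fun σ => ?_
  rw [one_mul, mul_one]
  rfl

theorem residual_isAbsolutelyIrreducible_bc {ρ : GaloisRepAdic A}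
    (h : ρ.residual.IsAbsolutelyIrreducible) :
    (ρ.baseChangeAlong φ hφ).residual.IsAbsolutelyIrreducible := by
  refine BN2.isAbsolutelyIrreducible_of_charpoly_eq (RingHom.id _) (ResidueField.map φ) _
    ρ.residual (fun σ => ?_) h
  have hr : ∀ {C : Type} [CommRing C] [IsLocalRing C] (ρ : GaloisRepAdic C)
      (σ : AlgebraicClosure ℚ ≃ₐ[ℚ] AlgebraicClosure ℚ), LinearMap.charpoly (ρ.residual.ρ σ) =
        (LinearMap.charpoly (ρ.ρ σ)).map (residue C) := fun ρ σ =>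
    LinearMap.charpoly_baseChange (ρ.ρ σ) _
  rw [hr, hr, charpoly_baseChangeAlong, Polynomial.map_map, Polynomial.map_map, Polynomial.map_map]
  rfl

end

section

variable {M p : ℕ} [NeZero M] [hpf : Fact p.Prime] {S : Finset ℕ}
  {𝒪 : Type} [CommRing 𝒪] [IsDomain 𝒪] [IsDiscreteValuationRing 𝒪]
  [IsAdicComplete (IsLocalRing.maximalIdeal 𝒪) 𝒪]
  {T : Type} [CommRing T] [IsLocalRing T] [IsNoetherianRing T] [Algebra 𝒪 T]
  [IsLocalHom (algebraMap 𝒪 T)] [Module.Finite 𝒪 T]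

/-- **Core of S33**: representations over reduced finite torsion-free `𝒪`-algebras. -/
theorem isOrdinaryAt_core (hD : DegeneracyInput M p) [Finite (ResidueField 𝒪)] [CharZero 𝒪]
    [Module.IsTorsionFree 𝒪 T] (hred : IsReduced T)
    (hp2 : p ≠ 2) (hp𝒪 : (p : 𝒪) ∈ maximalIdeal 𝒪) (hpM : ¬ p ∣ M)
    (hNS : ∀ q : ℕ, q.Prime → q ∣ M * p → q ∈ S)
    (π : CuspForm.heckeAlgebra (M * p) 2 (↑S : Set ℕ) →+* T) (ρ : GaloisRepAdic T)
    (hcharpoly : ∀ (ℓ : ℕ) (hℓ : ℓ.Prime) (hℓN : ¬ ℓ ∣ M * p) (hℓS : ℓ ∉ (↑S : Set ℕ)),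
      ∀ A : ValuationSubring (AlgebraicClosure ℚ), A.LiesOverPrime ℓ →
        ∀ σ : AlgebraicClosure ℚ ≃ₐ[ℚ] AlgebraicClosure ℚ, A.IsFrobeniusAt σ ℓ →
          LinearMap.charpoly (ρ.ρ σ) = Polynomial.X ^ 2 -
            Polynomial.C (π (CuspForm.heckeAlgebra.T hℓ hℓN hℓS)) * Polynomial.X +
            Polynomial.C ((ℓ : T)))
    (hirr : ρ.residual.IsAbsolutelyIrreducible)
    (hres : (GaloisRepAdic.ofResidualGaloisRep ρ.residual).IsOrdinaryAt p) :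
    ρ.IsOrdinaryAt p := by
  have hp := hpf.out
  have hpT : (p : T) ∈ maximalIdeal T := by
    have h2 := map_nonunit (algebraMap 𝒪 T) (p : 𝒪) hp𝒪
    rwa [map_natCast] at h2
  have hdet : ρ.DetIsCyclotomic p := by
    refine Fermat.Agent.FrobCompare.detIsCyclotomic_of_frob Fermat.Agent.CMP.Density.frobDensity ρ
      hp.ne_zero hpT S ?_
    intro ℓ hℓ hℓS P hP σ hσ
    have hℓN : ¬ ℓ ∣ M * p := fun h => hℓS (hNS ℓ hℓ h)
    have hcp := hcharpoly ℓ hℓ hℓN (by exact_mod_cast hℓS) P hP σ hσ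
    rw [Fermat.Agent.BN2.charpoly_eq_of_finrank_two ρ.finrank_eq] at hcp
    have := congrArg (fun P => Polynomial.coeff P 0) hcp
    simpa [Polynomial.coeff_X, Polynomial.coeff_C] using this
  have hcomp : ∀ i : {P : Ideal T // P ∈ minimalPrimes T},
      ∃ (𝒪' : Type) (_ : CommRing 𝒪') (_ : IsLocalRing 𝒪') (φ : T →+* 𝒪') (hφ : IsLocalHom φ),
        RingHom.ker φ = i.1 ∧ (ρ.baseChangeAlong φ hφ).IsOrdinaryAt p := by
    rintro ⟨P, hP⟩
    have hPp : P.IsPrime := hP.1.1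
    obtain ⟨𝒪', i1, i2, i3, i4, i5, i6, i7, i8, i9, i10, h1, φ, hφ⟩ :=
      RT.Components.exists_dvr_of_isPrime 𝒪 T P
        (RT.Components.comap_eq_bot_of_mem_minimalPrimes 𝒪 T P hP)
    have hloc : IsLocalHom (φ : T →+* 𝒪') := isLocalHom_of_finite φ
    refine ⟨𝒪', i1, inferInstance, (φ : T →+* 𝒪'), hloc, hφ, ?_⟩
    have hp𝒪' : (p : 𝒪') ∈ maximalIdeal 𝒪' := by
      have h2 := map_nonunit (algebraMap 𝒪 𝒪') (p : 𝒪) hp𝒪
      rwa [map_natCast] at h2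
    refine isOrdinaryAt_of_point hD hp2 hp𝒪' hpM hNS ((φ : T →+* 𝒪').comp π)
      (ρ.baseChangeAlong (φ : T →+* 𝒪') hloc) ?_ (residual_isAbsolutelyIrreducible_bc _ _ hirr)
      (residual_isOrdinaryAt_bc _ _ hres)
    intro ℓ hℓ hℓN hℓS A hA σ hσ
    rw [charpoly_baseChangeAlong, hcharpoly ℓ hℓ hℓN hℓS A hA σ hσ]
    simp
  choose B i1 i2 φ hφ hker hord using hcomp
  refine Glue.isOrdinaryAt_of_forall_baseChange ρ p B φ hφ ?_ hord
    (fun P hP => Cyc.exists_isUnit_det_sub_one ρ hp hp2 hdet P hP)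
  intro a ha
  have h1 : a ∈ sInf (minimalPrimes T) := by
    rw [Ideal.mem_sInf]
    intro P hP
    have := ha ⟨P, hP⟩
    rw [← RingHom.mem_ker, hker] at this
    exact this
  have h2 : sInf (minimalPrimes T) = (⊥ : Ideal T) := by
    have := Ideal.sInf_minimalPrimes (I := (⊥ : Ideal T))
    rw [minimalPrimes, this]
    exact nilradical_eq_bot_iff.mpr hred
  rw [h2, Ideal.mem_bot] at h1
  exact h1

end

section

variable {p : ℕ} {N : ℕ} [NeZero N] {S : Finset ℕ}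
  {𝒪 : Type} [CommRing 𝒪] [IsDomain 𝒪] [IsDiscreteValuationRing 𝒪]
  [IsAdicComplete (IsLocalRing.maximalIdeal 𝒪) 𝒪]
  {θ : CuspForm.heckeAlgebra N 2 (↑S : Set ℕ) →+* IsLocalRing.ResidueField 𝒪}
  {T : Type} [CommRing T] [IsLocalRing T] [IsNoetherianRing T]
  [IsAdicComplete (IsLocalRing.maximalIdeal T) T] [Algebra 𝒪 T] [IsLocalHom (algebraMap 𝒪 T)]
  [Module.Finite 𝒪 T] [Module.Free 𝒪 T]

/-- **S33 from the degeneracy input.** -/
theorem s33_of_degeneracy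
    (hD : ∀ (M p : ℕ) [NeZero M] [Fact p.Prime], ¬ p ∣ M → DegeneracyInput M p)
    [Finite (IsLocalRing.ResidueField 𝒪)] [CharZero 𝒪]
    (hp : p.Prime) (hp2 : p ≠ 2) (hp𝒪 : (p : 𝒪) ∈ IsLocalRing.maximalIdeal 𝒪)
    (hN : p ∣ N ∧ ¬ p ^ 2 ∣ N)
    (hNS : ∀ q : ℕ, q.Prime → q ∣ N → q ∈ S)
    (H : CuspForm.HeckeGaloisRepDatum N (↑S : Set ℕ) 𝒪 θ T)
    (hres : (GaloisRepAdic.ofResidualGaloisRep H.ρ.residual).IsOrdinaryAt p) :
    H.ρ.IsOrdinaryAt p := by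
  have hredh : IsReduced (CuspForm.heckeAlgebra N 2 (↑S : Set ℕ)) :=
    Petersson.isReduced_heckeAlgebra hNS
  have _ : Module.Finite ℤ (CuspForm.heckeAlgebra N 2 (↑S : Set ℕ)) :=
    IntStr.moduleFinite_heckeAlgebra N 2 (↑S : Set ℕ)
  have hred : IsReduced T := RT.Reduced.isReduced_of_adjoin_range_eq_top
    (CuspForm.heckeAlgebra N 2 (↑S : Set ℕ)) 𝒪 T H.π H.adjoin_range_π
  obtain ⟨⟨M, rfl⟩, hp2N⟩ := hN
  have hM0 : NeZero M := ⟨fun h => NeZero.ne (p * M) (by rw [h, mul_zero])⟩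
  have hpf : Fact p.Prime := ⟨hp⟩
  have hpM : ¬ p ∣ M := fun ⟨c, hc⟩ => hp2N ⟨c, by rw [hc]; ring⟩
  have key : ∀ (N' : ℕ) [NeZero N'] (_ : N' = p * M)
      (_ : ∀ q : ℕ, q.Prime → q ∣ N' → q ∈ S)
      (π : CuspForm.heckeAlgebra N' 2 (↑S : Set ℕ) →+* T),
      (∀ (ℓ : ℕ) (hℓ : ℓ.Prime) (hℓN : ¬ ℓ ∣ N') (hℓS : ℓ ∉ (↑S : Set ℕ)),
        ∀ A : ValuationSubring (AlgebraicClosure ℚ), A.LiesOverPrime ℓ →
          ∀ σ : AlgebraicClosure ℚ ≃ₐ[ℚ] AlgebraicClosure ℚ, A.IsFrobeniusAt σ ℓ →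
            LinearMap.charpoly (H.ρ.ρ σ) = Polynomial.X ^ 2 -
              Polynomial.C (π (CuspForm.heckeAlgebra.T hℓ hℓN hℓS)) * Polynomial.X +
              Polynomial.C ((ℓ : T))) → H.ρ.IsOrdinaryAt p := by
    intro N' _ hN' hNS' π hcp
    have hN'' : N' = M * p := hN'.trans (mul_comm p M)
    subst hN''
    exact isOrdinaryAt_core (𝒪 := 𝒪) (hD M p hpM) hred hp2 hp𝒪 hpM hNS' π H.ρ hcp
      H.residual_absIrr hres
  exact key (p * M) rfl hNS H.π H.charpoly_frob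

end

end Fermat.Agent.FlatOrd.S33
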